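import Fermat.Agent.Kum.Frob
import Fermat.Agent.RedMod.Bar

/-!
# `HasBGM N p` for all `N`, `p`
-/

set_option autoImplicit false
set_option linter.unusedSectionVars false
set_option linter.style.haveILetI false

open ModularCurve AlgebraicCurve

namespace Fermat.Agent.Kum

open Fermat.Agent.ModPoly Fermat.Agent.Red Fermat.Agent.RedMod Fermat.Agent.HeckeProd
  Fermat.Agent.GalRep

noncomputable section

/-- every nonzero element has an integral multiple with nonzero reduction -/
theorem exists_smul_red_ne_zero {A K F k R : Type*} [CommRing A] [IsDomain A] [ValuationRing A]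
    [Field K] [Algebra A K] [IsFractionRing A K] [Field F] [Algebra K F] [Algebra A F]
    [IsScalarTower A K F] [Field k] [Algebra A k] [CommRing R] [Nontrivial R] [Algebra k R]
    [Algebra A R] [IsScalarTower A k R] (M : RedModel A K F k R)
    (hk : Function.Surjective (algebraMap A k)) {x : F} (hx : x ≠ 0) :
    ∃ c : K, c ≠ 0 ∧ ∃ h : c • x ∈ M.W, M.π ⟨c • x, h⟩ ≠ 0 := by
  let V : Submodule K F := Submodule.span K {x}
  let b := Module.Free.chooseBasis A (M.lat V)
  have h1 : Module.finrank A (M.lat V) = 1 := by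
    rw [M.finrank_lat V]; exact finrank_span_singleton hx
  rw [Module.finrank_eq_card_basis b] at h1
  have h2 : 0 < Fintype.card (Module.Free.ChooseBasisIndex A (M.lat V)) := by omega
  obtain ⟨i⟩ := Fintype.card_pos_iff.1 h2
  have h3 := (M.linearIndependent_red hk b).ne_zero i
  rw [M.redLin_apply] at h3
  obtain ⟨c, hc⟩ := Submodule.mem_span_singleton.1 (b i).2.2
  have hmem : c • x ∈ M.W := by rw [hc]; exact (b i).2.1
  have hc0 : c ≠ 0 := by
    rintro rfl
    rw [zero_smul] at hc
    apply h3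
    have : (⟨((b i : M.lat V) : F), (b i).2.1⟩ : M.W) = 0 := Subtype.ext hc.symm
    rw [this, map_zero]
  refine ⟨c, hc0, hmem, ?_⟩
  intro h0
  apply h3
  rw [← h0]
  congr 1
  exact Subtype.ext hc.symm

section Generic

variable {A K k : Type*} [CommRing A] [IsDomain A] [ValuationRing A]
  [Field K] [IsAlgClosed K] [Algebra A K] [IsFractionRing A K] [Field k] [IsAlgClosed k]
  [Algebra A k] {N : ℕ} [NeZero N]

theorem scale_FF (hk : Function.Surjective (algebraMap A k)) (hN : (N : k) ≠ 0)
    {E : IntermediateField K (LaurentSeries K)} (hE : E = modularFunctionFieldFullC K N)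
    {f : E} (hf : f ≠ 0) : ∃ c : K, c ≠ 0 ∧ ∃ P Q : LaurentSeries A, redL A k P ≠ 0 ∧
      redL A k Q ≠ 0 ∧ incL A K Q * (algebraMap K E c * f : E) = incL A K P := by
  subst hE
  letI : Algebra A (FF K N) := ((algebraMap K (FF K N)).comp (algebraMap A K)).toAlgebra
  haveI : IsScalarTower A K (FF K N) := IsScalarTower.of_algebraMap_eq fun a => rfl
  letI : Algebra A (FF k N) := ((algebraMap k (FF k N)).comp (algebraMap A k)).toAlgebra
  haveI : IsScalarTower A k (FF k N) := IsScalarTower.of_algebraMap_eq fun a => rfl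
  obtain ⟨c, hc, hmem, h⟩ := exists_smul_red_ne_zero
    ((gaussFF K hk hN).toRedModel hk (gaussFF_span hk hN)) hk hf
  refine ⟨c, hc, ?_⟩
  have hmem' : c • f ∈ Wφ A k (FF K N).val := hmem
  obtain ⟨u, v, hv, huv⟩ := hmem'
  rw [Algebra.smul_def] at huv
  refine ⟨u, v, ?_, hv, huv⟩
  intro hu
  apply h
  apply Subtype.ext
  change πφ A k (FF K N).val ⟨c • f, hmem⟩ = 0
  rw [πφ_eq (FF K N).val hmem hv (u := u) (by rw [Algebra.smul_def]; exact huv), hu, zero_div]

end Generic

section Qbar

variable {A : ValuationSubring (AlgebraicClosure ℚ)} {ℓ : ℕ} {N m : ℕ} [NeZero N]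

theorem goodRed (hℓ : ℓ.Prime) (hN : ¬ ℓ ∣ N) (hm : ¬ ℓ ∣ m) (hA : A.LiesOverPrime ℓ) :
    GoodRed N m A := by
  haveI : Fact ℓ.Prime := ⟨hℓ⟩
  refine ⟨?_, ?_⟩
  · rintro f hf ⟨u, v, hv, h1, h2⟩
    have hu : coeffMap (IsLocalRing.residue A) u = coeffMap (IsLocalRing.residue A) v := by
      rw [mul_one] at h2
      exact h2.symm
    exact rigidity_modular (A := A) hA hN hm (f := f) (P := u) (Q := v)
      (by rw [mul_comm]; exact h1) (by rw [hu]; exact hv) hv (γ := 1) (one_mem _)
      (by rw [one_pow, one_mul]; exact hu) hf.2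
  · intro f hf
    obtain ⟨c, hc, P, Q, hP, hQ, h⟩ := scale_FF (A := A) (K := AlgebraicClosure ℚ)
      (k := IsLocalRing.ResidueField A) (N := N)
      IsLocalRing.residue_surjective (natCast_residue_ne_zero hA hN)
      (X0Genus.baseChange_eq (AlgebraicClosure ℚ) N) hf
    exact ⟨c, hc, redL A _ P / redL A _ Q, div_ne_zero hP hQ, P, Q, hQ, h,
      mul_div_cancel₀ _ hQ⟩

/-- **Big Galois modules exist.** -/
theorem hasBGM (N p : ℕ) [NeZero N] [Fact p.Prime] : HasBGM N p :=
  hasBGM_of_goodRed p exists_ιC.some fun _ _ hℓ hN hm _ hA => goodRed hℓ hN hm hA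

end Qbar

end

end Fermat.Agent.Kum
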