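import Mathlib

/-!
# Automorphisms of `ℂ`: elements with finite orbits are algebraic
-/

set_option autoImplicit false

namespace Fermat.Agent.Kum

noncomputable section

lemma equiv_aux (R M : Type) [CommRing R] [IsDomain R] [Field M]
    [IsAlgClosed M] [Algebra R M] (hM : Function.Injective (algebraMap R M))
    [Algebra.IsAlgebraic R M] (e : R ≃+* R) :
    ∃ σ : M ≃+* M, ∀ r : R, σ (algebraMap R M r) = algebraMap R M (e r) := by
  have : Module.IsTorsionFree R M := Module.isTorsionFree_iff_algebraMap_injective.mpr hM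
  have : IsAlgClosure R M := ⟨inferInstance, inferInstance⟩
  exact ⟨IsAlgClosure.equivOfEquiv M M e, fun r => IsAlgClosure.equivOfEquiv_algebraMap M M e r⟩

/-- a transcendental number has translates by all natural numbers as conjugates -/
theorem exists_aut_add (a : ℂ) (ha : Transcendental ℚ a) (n : ℕ) :
    ∃ σ : ℂ ≃ₐ[ℚ] ℂ, σ a = a + n := by
  classical
  have hind : AlgebraicIndepOn ℚ id ({a} : Set ℂ) :=
    (algebraicIndependent_singleton_iff (R := ℚ) (x := fun i : ({a} : Set ℂ) => id (i : ℂ))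
      ⟨a, rfl⟩).mpr ha
  obtain ⟨B, haB, hB⟩ := exists_isTranscendenceBasis_superset hind
  let v : B → ℂ := fun b => b
  let R := Algebra.adjoin ℚ (Set.range v)
  have : Algebra.IsAlgebraic R ℂ := hB.isAlgebraic
  let θ : MvPolynomial B ℚ →ₐ[ℚ] MvPolynomial B ℚ :=
    MvPolynomial.aeval (fun b => MvPolynomial.X b + MvPolynomial.C (n : ℚ))
  let θ' : MvPolynomial B ℚ →ₐ[ℚ] MvPolynomial B ℚ :=
    MvPolynomial.aeval (fun b => MvPolynomial.X b - MvPolynomial.C (n : ℚ))
  have h1 : θ'.comp θ = AlgHom.id ℚ _ := by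
    apply MvPolynomial.algHom_ext
    intro b
    simp [θ, θ']
  have h2 : θ.comp θ' = AlgHom.id ℚ _ := by
    apply MvPolynomial.algHom_ext
    intro b
    simp [θ, θ']
  let e : MvPolynomial B ℚ ≃ₐ[ℚ] MvPolynomial B ℚ := AlgEquiv.ofAlgHom θ θ' h2 h1
  let E : R ≃ₐ[ℚ] R := (hB.1.aevalEquiv.symm.trans e).trans hB.1.aevalEquiv
  obtain ⟨σ, hσ⟩ := equiv_aux R ℂ Subtype.val_injective E.toRingEquiv
  have haB' : a ∈ B := haB rfl
  have haR : a ∈ R := Algebra.subset_adjoin ⟨⟨a, haB'⟩, rfl⟩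
  refine ⟨AlgEquiv.ofRingEquiv (f := σ) (fun r => ?_), ?_⟩
  · simp
  · have h3 : hB.1.aevalEquiv.symm ⟨a, haR⟩ = MvPolynomial.X ⟨a, haB'⟩ := by
      rw [AlgEquiv.symm_apply_eq]
      apply Subtype.ext
      simp
    have h4 := hσ ⟨a, haR⟩
    have h5 : E.toRingEquiv ⟨a, haR⟩ = ⟨a, haR⟩ + (n : R) := by
      change hB.1.aevalEquiv (e (hB.1.aevalEquiv.symm ⟨a, haR⟩)) = _
      rw [h3]
      have h6 : e (MvPolynomial.X ⟨a, haB'⟩) =
          MvPolynomial.X ⟨a, haB'⟩ + MvPolynomial.C (n : ℚ) := by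
        change θ (MvPolynomial.X ⟨a, haB'⟩) = _
        simp [θ]
      rw [h6, map_add, ← h3, AlgEquiv.apply_symm_apply]
      congr 1
      simp
    rw [h5] at h4
    exact h4

/-- a number with a finite orbit is algebraic -/
theorem isAlgebraic_of_finite_orbit {a : ℂ}
    (h : (Set.range fun σ : ℂ ≃ₐ[ℚ] ℂ => σ a).Finite) : IsAlgebraic ℚ a := by
  by_contra ha
  choose σ hσ using exists_aut_add a ha
  have : Set.Infinite (Set.range fun σ : ℂ ≃ₐ[ℚ] ℂ => σ a) := by
    refine Set.infinite_of_injective_forall_mem (f := fun n : ℕ => a + n) ?_ ?_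
    · intro m n hmn
      simpa using hmn
    · intro n
      exact ⟨σ n, hσ n⟩
  exact this h

/-- algebraic numbers are in the image of any embedding of an algebraically closed field -/
theorem mem_range_of_isAlgebraic {K : Type*} [Field K] [IsAlgClosed K] [CharZero K] (ι : K →+* ℂ)
    {a : ℂ} (ha : IsAlgebraic ℚ a) : a ∈ ι.range := by
  let _ := ι.toAlgebra
  have h1 : IsAlgebraic K a := by
    obtain ⟨p, hp, hpa⟩ := ha
    refine ⟨p.map (algebraMap ℚ K), ?_, ?_⟩
    · rwa [ne_eq, Polynomial.map_eq_zero]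
    · rw [Polynomial.aeval_map_algebraMap]
      convert hpa
  have h2 := IsAlgClosed.degree_eq_one_of_irreducible K (minpoly.irreducible h1.isIntegral)
  exact minpoly.mem_range_of_degree_eq_one K a h2

end

end Fermat.Agent.Kum
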