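import Mathlib

/-!
# `m`-th roots of Laurent series with coefficients in a subfield
-/

set_option autoImplicit false
set_option linter.unusedSectionVars false

namespace Fermat.Agent.Kum

noncomputable section

lemma coeff_mul_lead {R : Type*} [CommRing R] {x y : LaurentSeries R} {i l : ℤ}
    (hx : ∀ j < i, x.coeff j = 0) (hy : ∀ j < l, y.coeff j = 0) :
    (∀ j < i + l, (x * y).coeff j = 0) ∧ (x * y).coeff (i + l) = x.coeff i * y.coeff l := by
  constructor
  · intro j hj
    rw [HahnSeries.coeff_mul]
    refine Finset.sum_eq_zero fun ab hab => ?_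
    rw [Finset.mem_antidiagonal] at hab
    obtain ⟨h1, h2, h3⟩ := hab
    rcases lt_or_ge ab.1 i with h4 | h4
    · rw [hx _ h4, zero_mul]
    · rw [hy _ (by omega), mul_zero]
  · rw [HahnSeries.coeff_mul]
    by_cases h0 : x.coeff i * y.coeff l = 0
    · rw [h0]
      refine Finset.sum_eq_zero fun ab hab => ?_
      rw [Finset.mem_antidiagonal] at hab
      obtain ⟨h1, h2, h3⟩ := hab
      rcases lt_trichotomy ab.1 i with h4 | h4 | h4
      · rw [hx _ h4, zero_mul]
      · have h5 : ab.2 = l := by omega
        rw [h4, h5, h0]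
      · rw [hy _ (by omega), mul_zero]
    · rw [Finset.sum_eq_single (i, l)]
      · intro ab hab hne
        rw [Finset.mem_antidiagonal] at hab
        obtain ⟨h1, h2, h3⟩ := hab
        rcases lt_trichotomy ab.1 i with h4 | h4 | h4
        · rw [hx _ h4, zero_mul]
        · exact absurd (Prod.ext h4 (by omega)) hne
        · rw [hy _ (by omega), mul_zero]
      · intro h
        exfalso
        apply h
        rw [Finset.mem_antidiagonal]
        exact ⟨left_ne_zero_of_mul h0, right_ne_zero_of_mul h0, rfl⟩

lemma coeff_pow_lead {R : Type*} [CommRing R] {x : LaurentSeries R} {i : ℤ}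
    (hx : ∀ j < i, x.coeff j = 0) (n : ℕ) :
    (∀ j < n * i, (x ^ n).coeff j = 0) ∧ (x ^ n).coeff (n * i) = x.coeff i ^ n := by
  induction n with
  | zero =>
    refine ⟨fun j hj => ?_, by simp⟩
    rw [pow_zero, HahnSeries.coeff_one, if_neg (by simpa using hj.ne)]
  | succ n ih =>
    have h := coeff_mul_lead ih.1 hx
    have e : (n : ℤ) * i + i = ((n + 1 : ℕ) : ℤ) * i := by push_cast; ring
    rw [← pow_succ, e] at h
    refine ⟨h.1, ?_⟩
    rw [h.2, ih.2, pow_succ]

variable {k : Type*} [Field k] [CharZero k]

/-- Laurent series with coefficients in a subfield form a subring -/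
def serS (k₀ : Subfield k) : Subring (LaurentSeries k) where
  carrier := {x | ∀ i, x.coeff i ∈ k₀}
  mul_mem' {x y} hx hy i := by
    rw [HahnSeries.coeff_mul]
    exact sum_mem fun ab _ => mul_mem (hx _) (hy _)
  one_mem' i := by
    rw [HahnSeries.coeff_one]
    split_ifs
    · exact one_mem _
    · exact zero_mem _
  add_mem' {x y} hx hy i := by
    rw [HahnSeries.coeff_add]; exact add_mem (hx _) (hy _)
  zero_mem' i := by
    rw [HahnSeries.coeff_zero]; exact zero_mem _
  neg_mem' {x} hx i := by
    rw [HahnSeries.coeff_neg]; exact neg_mem (hx _)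

lemma mem_serS {k₀ : Subfield k} {x : LaurentSeries k} : x ∈ serS k₀ ↔ ∀ i, x.coeff i ∈ k₀ := Iff.rfl

/-- the truncation -/
def trunc' (x : LaurentSeries k) (i : ℤ) : LaurentSeries k where
  coeff j := if j < i then x.coeff j else 0
  isPWO_support' := x.isPWO_support.mono fun j hj => by
    rw [Function.mem_support] at hj
    rw [HahnSeries.mem_support]
    intro h
    apply hj
    rw [h, ite_self]

lemma coeff_trunc' (x : LaurentSeries k) (i j : ℤ) :
    (trunc' x i).coeff j = if j < i then x.coeff j else 0 := rfl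

/-- If `z ^ m` has coefficients in `k₀` and so does the leading coefficient of `z`, then all
coefficients of `z` are in `k₀`. -/
theorem mem_serS_of_pow {k₀ : Subfield k} {m : ℕ} (hm : 0 < m) {z : LaurentSeries k}
    (hz : z ^ m ∈ serS k₀) (hl : z.leadingCoeff ∈ k₀) : z ∈ serS k₀ := by
  by_cases hz0 : z = 0
  · rw [hz0]; exact zero_mem _
  set o := z.order with ho
  have hlo : ∀ j < o, z.coeff j = 0 := fun j hj => HahnSeries.coeff_eq_zero_of_lt_order hj
  have hc0 : z.coeff o ≠ 0 := mt HahnSeries.coeff_order_eq_zero.1 hz0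
  have hco : z.coeff o ∈ k₀ := by rwa [HahnSeries.leadingCoeff_eq] at hl
  have key : ∀ n : ℕ, ∀ j < o + n, z.coeff j ∈ k₀ := by
    intro n
    induction n with
    | zero =>
      intro j hj
      rw [hlo j (by simpa using hj)]
      exact zero_mem _
    | succ n ih =>
      intro j hj
      rcases lt_or_ge j (o + n) with h1 | h1
      · exact ih j h1
      have hji : j = o + n := by push_cast at hj; omega
      subst hji
      rcases Nat.eq_zero_or_pos n with rfl | hn
      · simpa using hco
      set i : ℤ := o + n with hi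
      have hio : o < i := by omega
      set a := trunc' z i with ha
      have haS : a ∈ serS k₀ := by
        intro l
        rw [ha, coeff_trunc']
        split_ifs with h2
        · exact ih l h2
        · exact zero_mem _
      have halo : ∀ l < o, a.coeff l = 0 := by
        intro l hl
        rw [ha, coeff_trunc', if_pos (by omega), hlo l hl]
      have hao : a.coeff o = z.coeff o := by rw [ha, coeff_trunc', if_pos hio]
      have hdlo : ∀ l < i, (z - a).coeff l = 0 := by
        intro l hl
        rw [HahnSeries.coeff_sub, ha, coeff_trunc', if_pos hl, sub_self]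
      have hdi : (z - a).coeff i = z.coeff i := by
        rw [HahnSeries.coeff_sub, ha, coeff_trunc', if_neg (lt_irrefl _), sub_zero]
      have hfac : (∑ r ∈ Finset.range m, z ^ r * a ^ (m - 1 - r)) * (z - a) = z ^ m - a ^ m :=
        Commute.geom_sum₂_mul (Commute.all z a) m
      have hterm : ∀ r ∈ Finset.range m,
          (∀ l < ((m - 1 : ℕ) : ℤ) * o, (z ^ r * a ^ (m - 1 - r)).coeff l = 0) ∧
          (z ^ r * a ^ (m - 1 - r)).coeff (((m - 1 : ℕ) : ℤ) * o) = z.coeff o ^ (m - 1) := by
        intro r hr
        rw [Finset.mem_range] at hr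
        have h2 := coeff_pow_lead hlo r
        have h3 := coeff_pow_lead halo (m - 1 - r)
        have h4 := coeff_mul_lead h2.1 h3.1
        have e : (r : ℤ) * o + ((m - 1 - r : ℕ) : ℤ) * o = ((m - 1 : ℕ) : ℤ) * o := by
          rw [← add_mul]
          congr 1
          omega
        rw [e] at h4
        refine ⟨h4.1, ?_⟩
        rw [h4.2, h2.2, h3.2, hao, ← pow_add]
        congr 1
        omega
      have hs1 : ∀ l < ((m - 1 : ℕ) : ℤ) * o,
          (∑ r ∈ Finset.range m, z ^ r * a ^ (m - 1 - r)).coeff l = 0 := by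
        intro l hl
        rw [HahnSeries.coeff_sum]
        exact Finset.sum_eq_zero fun r hr => (hterm r hr).1 l hl
      have hs2 : (∑ r ∈ Finset.range m, z ^ r * a ^ (m - 1 - r)).coeff (((m - 1 : ℕ) : ℤ) * o) =
          m * z.coeff o ^ (m - 1) := by
        rw [HahnSeries.coeff_sum, Finset.sum_congr rfl fun r hr => (hterm r hr).2,
          Finset.sum_const, Finset.card_range, nsmul_eq_mul]
      have h5 := (coeff_mul_lead hs1 hdlo).2
      rw [hfac, hs2, hdi] at h5
      have h6 : (z ^ m - a ^ m).coeff (((m - 1 : ℕ) : ℤ) * o + i) ∈ k₀ :=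
        (sub_mem hz (pow_mem haS m)) _
      rw [h5] at h6
      have h7 : (m : k) * z.coeff o ^ (m - 1) ≠ 0 :=
        mul_ne_zero (by exact_mod_cast hm.ne') (pow_ne_zero _ hc0)
      have h8 : (m : k) * z.coeff o ^ (m - 1) ∈ k₀ :=
        mul_mem (natCast_mem k₀ m) (pow_mem hco _)
      have h9 : z.coeff i = ((m : k) * z.coeff o ^ (m - 1))⁻¹ *
          ((m : k) * z.coeff o ^ (m - 1) * z.coeff i) := by
        rw [inv_mul_cancel_left₀ h7]
      rw [h9]
      exact mul_mem (inv_mem h8) h6
  intro j
  exact key (j - o + 1).toNat j (by omega)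

end

end Fermat.Agent.Kum
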