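import Fermat.Agent.Kum.Exist
import Fermat.Agent.Kum.MRoot

/-!
# Kummer classes of functions over an algebraically closed field, and `Hom_par(Γ₀(N), ℤ)`
-/

set_option autoImplicit false
set_option linter.unusedSectionVars false

open UpperHalfPlane ModularForm Complex Filter Topology Matrix.SpecialLinearGroup
open scoped MatrixGroups Manifold

namespace Fermat.Agent.Kum

open Fermat.Agent.MFLib ModularCurve AlgebraicCurve Fermat.Agent.ModPoly Fermat.Agent.Curve
  Fermat.Agent.X0Genus Fermat.Agent.JFun Fermat.Agent.Cosets Fermat.Agent.KumF Fermat.Agent.RR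

noncomputable section

variable {N : ℕ} {m M : ℕ} [NeZero m] [NeZero M] [NeZero N]

section

variable {K : Type*} [Field K] [IsAlgClosed K] [CharZero K] (ι : K →+* ℂ)

theorem mem_range_of_pow {a : ℂ} {c : K} {m : ℕ} (hm : 0 < m) (h : a ^ m = ι c) :
    a ∈ ι.fieldRange := by
  let _ := ι.toAlgebra
  have h1 : IsIntegral K a := by
    refine ⟨Polynomial.X ^ m - Polynomial.C c, Polynomial.monic_X_pow_sub_C c hm.ne', ?_⟩
    rw [Polynomial.eval₂_sub, Polynomial.eval₂_pow, Polynomial.eval₂_X, Polynomial.eval₂_C, h]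
    exact sub_self _
  have h2 := IsAlgClosed.degree_eq_one_of_irreducible K (minpoly.irreducible h1)
  exact minpoly.mem_range_of_degree_eq_one K a h2

variable [Algebra ℚ K]

/-- a function with trivial Kummer character is an `m`-th power -/
theorem exists_pow_of_rep_zero {x : FK K N}
    (h : Rep N (coeffMap ι x.1) (0 : Additive (G0 N) →+ ZMod m)) : ∃ z : FK K N, x = z ^ m := by
  obtain ⟨z, hz, h1⟩ := h.exists_pow
  have hm : 0 < m := NeZero.pos m
  have hS : z ^ m ∈ serS ι.fieldRange := by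
    rw [← h1]
    intro i
    rw [coeffMap_coeff]
    exact ⟨_, rfl⟩
  have hlp : ∀ k : ℕ, (z ^ k).leadingCoeff = z.leadingCoeff ^ k := by
    intro k
    induction k with
    | zero => simp
    | succ k ih => rw [pow_succ, pow_succ, HahnSeries.leadingCoeff_mul, ih]
  have hl : z.leadingCoeff ∈ ι.fieldRange := by
    refine mem_range_of_pow ι (c := x.1.leadingCoeff) hm ?_
    rw [← hlp, ← h1, leadingCoeff_coeffMap]
  have h2 := mem_serS_of_pow hm hS hl
  obtain ⟨y, hy⟩ := exists_FK_of_mem_MFun (K := K) ι N hz (fun i => by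
    obtain ⟨c, hc⟩ := h2 i
    exact ⟨c, hc⟩)
  refine ⟨y, ?_⟩
  apply Subtype.ext
  apply (coeffMap ι).injective
  rw [h1, coe_pow', map_pow, hy]

end

/-! ### lifting characters to `ℤ` -/

variable (N) in
theorem exists_torsion_bound : ∃ c : ℕ, 0 < c ∧ ∀ t ∈ Submodule.torsion ℤ (HeckeHom.QA N),
    c • t = 0 := by
  have h1 : Module.Finite ℤ (Submodule.torsion ℤ (HeckeHom.QA N)) := inferInstance
  have h2 : Finite (Submodule.torsion ℤ (HeckeHom.QA N)) :=
    Module.finite_of_fg_torsion _ (Submodule.torsion_isTorsion)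
  refine ⟨Nat.card (Submodule.torsion ℤ (HeckeHom.QA N)), Nat.card_pos, fun t ht => ?_⟩
  have h3 := card_nsmul_eq_zero' (x := (⟨t, ht⟩ : Submodule.torsion ℤ (HeckeHom.QA N)))
  exact congrArg Subtype.val h3

variable (N) in
/-- a bound for the torsion of `Γ₀(N)^ab` modulo parabolic elements -/
def tb : ℕ := (exists_torsion_bound N).choose

instance : NeZero (tb N) := ⟨(exists_torsion_bound N).choose_spec.1.ne'⟩

theorem tb_nsmul {t : HeckeHom.QA N} (ht : t ∈ Submodule.torsion ℤ (HeckeHom.QA N)) :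
    tb N • t = 0 := (exists_torsion_bound N).choose_spec.2 t ht

/-- reduction of integral characters -/
def redI (m : ℕ) (φ : HeckeHom.LZ N) : Additive (G0 N) →+ ZMod m :=
  (Int.castAddHom (ZMod m)).comp φ.1

lemma redI_add (φ ψ : HeckeHom.LZ N) : redI m (φ + ψ) = redI m φ + redI m ψ := by
  refine AddMonoidHom.ext fun γ => ?_
  change (((φ.1 + ψ.1) γ : ℤ) : ZMod m) = ((φ.1 γ : ℤ) : ZMod m) + ((ψ.1 γ : ℤ) : ZMod m)
  rw [AddMonoidHom.add_apply, Int.cast_add]

lemma redI_zero : redI m (0 : HeckeHom.LZ N) = 0 := by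
  refine AddMonoidHom.ext fun γ => ?_
  change (((0 : Additive (G0 N) →+ ℤ) γ : ℤ) : ZMod m) = 0
  simp

lemma redI_neg (φ : HeckeHom.LZ N) : redI m (-φ) = -redI m φ := by
  rw [eq_neg_iff_add_eq_zero, ← redI_add, neg_add_cancel, redI_zero]

lemma redI_sub (φ ψ : HeckeHom.LZ N) : redI m (φ - ψ) = redI m φ - redI m ψ := by
  rw [sub_eq_add_neg, redI_add, redI_neg, sub_eq_add_neg]

lemma redI_nsmul (n : ℕ) (φ : HeckeHom.LZ N) : redI m (n • φ) = n • redI m φ := by
  induction n with
  | zero => rw [zero_smul, zero_smul, redI_zero]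
  | succ n ih => rw [succ_nsmul, succ_nsmul, redI_add, ih]

lemma redI_parabolic (φ : HeckeHom.LZ N) : Period.IsParabolicHom (G0 N) (redI m φ) :=
  isParabolicHom_comp _ φ.2

lemma redZ_redI (h : m ∣ M) (φ : HeckeHom.LZ N) : (redZ h).comp (redI M φ) = redI m φ := by
  refine AddMonoidHom.ext fun γ => ?_
  exact redZ_intCast h _

/-- the kernel of the reduction -/
theorem redI_eq_zero {φ : HeckeHom.LZ N} : redI m φ = 0 ↔ ∃ ψ : HeckeHom.LZ N, φ = m • ψ := by
  constructor
  · intro h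
    have h1 : ∀ γ, (m : ℤ) ∣ φ.1 γ := by
      intro γ
      have := DFunLike.congr_fun h γ
      exact (ZMod.intCast_zmod_eq_zero_iff_dvd _ _).1 this
    choose c hc using h1
    have hm : (m : ℤ) ≠ 0 := by exact_mod_cast NeZero.ne m
    let ψ : Additive (G0 N) →+ ℤ := AddMonoidHom.mk' c (fun a b => by
      apply mul_left_cancel₀ hm
      rw [← hc, mul_add, ← hc, ← hc, map_add])
    refine ⟨⟨ψ, fun γ hγ => ?_⟩, ?_⟩
    · apply mul_left_cancel₀ hm
      change (m : ℤ) * c _ = _
      rw [← hc, mul_zero]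
      exact φ.2 γ hγ
    · apply Subtype.ext
      refine AddMonoidHom.ext fun γ => ?_
      change φ.1 γ = (m • ψ) γ
      rw [hc, AddMonoidHom.nsmul_apply, nsmul_eq_mul]
      rfl
  · rintro ⟨ψ, rfl⟩
    rw [redI_nsmul]
    refine AddMonoidHom.ext fun γ => ?_
    rw [AddMonoidHom.nsmul_apply, nsmul_eq_mul, ZMod.natCast_self, zero_mul]
    rfl

/-- parabolic characters modulo `m c` lift to integral characters modulo `m` -/
theorem exists_lift_redI {φ : Additive (G0 N) →+ ZMod (m * tb N)}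
    (hφ : Period.IsParabolicHom (G0 N) φ) :
    ∃ ψ : HeckeHom.LZ N, redI m ψ = (redZ (dvd_mul_right m (tb N))).comp φ := by
  let v : HeckeHom.QA N →ₗ[ℤ] ZMod m :=
    ((redZ (dvd_mul_right m (tb N))).comp (HeckeHom.fac φ hφ)).toIntLinearMap
  have hv : Submodule.torsion ℤ (HeckeHom.QA N) ≤ LinearMap.ker v := by
    intro t ht
    rw [LinearMap.mem_ker]
    change redZ (dvd_mul_right m (tb N)) (HeckeHom.fac φ hφ t) = 0
    have h1 : tb N • HeckeHom.fac φ hφ t = 0 := by
      rw [← map_nsmul, tb_nsmul ht, map_zero]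
    obtain ⟨j, hj⟩ := ZMod.intCast_surjective (HeckeHom.fac φ hφ t)
    rw [← hj, nsmul_eq_mul, ← Int.cast_natCast, ← Int.cast_mul,
      ZMod.intCast_zmod_eq_zero_iff_dvd] at h1
    rw [← hj, redZ_intCast, ZMod.intCast_zmod_eq_zero_iff_dvd]
    push_cast at h1
    rw [mul_comm] at h1
    exact Int.dvd_of_mul_dvd_mul_left (by exact_mod_cast NeZero.ne (tb N)) h1
  let v' : HeckeHom.FQ N →ₗ[ℤ] ZMod m := Submodule.liftQ _ v hv
  obtain ⟨w, hw⟩ := Module.projective_lifting_property
    ((Int.castAddHom (ZMod m)).toIntLinearMap) v' ZMod.intCast_surjective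
  refine ⟨⟨HeckeHom.unfac (w ∘ₗ Submodule.mkQ _).toAddMonoidHom,
    HeckeHom.isParabolicHom_unfac _⟩, ?_⟩
  refine AddMonoidHom.ext fun γ => ?_
  have h1 := LinearMap.congr_fun hw (Submodule.Quotient.mk
    (Additive.ofMul (HeckeHom.prQ N (Additive.toMul γ))))
  exact h1

end

end Fermat.Agent.Kum
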