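import Fermat.Agent.MFLib.Cusp
import Fermat.Agent.ModPoly.Main

/-!
# The field of modular functions of level `N` inside `ℂ((q))`
-/

set_option autoImplicit false

open UpperHalfPlane ModularForm Complex Filter Topology Matrix.SpecialLinearGroup
open scoped MatrixGroups Manifold

namespace Fermat.Agent.Kum

open Fermat.Agent.MFLib

noncomputable section

local notation "Δ" => ModularForm.discriminant

/-- `Γ₀(N)` -/
abbrev G0 (N : ℕ) : Subgroup SL(2, ℤ) := CongruenceSubgroup.Gamma0 N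

variable {N : ℕ} {k l : ℤ} {f g : ℍ → ℂ}

/-- the `q`-expansion as a Laurent series -/
def ql (f : ℍ → ℂ) : LaurentSeries ℂ := HahnSeries.ofPowerSeries ℤ ℂ (qe f)

theorem _root_.Fermat.Agent.MFLib.IsMF.qgN (hf : IsMF (G0 N) k f) : QG f := hf.qg (T_mem_Gamma0 N)

theorem ql_mul (hf : QG f) (hg : QG g) : ql (f * g) = ql f * ql g := by
  rw [ql, hf.qe_mul hg, map_mul]; rfl

theorem ql_add (hf : QG f) (hg : QG g) : ql (f + g) = ql f + ql g := by
  rw [ql, hf.qe_add hg, map_add]; rfl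

theorem ql_pow (hf : QG f) (n : ℕ) : ql (f ^ n) = ql f ^ n := by
  rw [ql, hf.qe_pow, map_pow]; rfl

theorem ofPS_inj {a b : PowerSeries ℂ} :
    HahnSeries.ofPowerSeries ℤ ℂ a = HahnSeries.ofPowerSeries ℤ ℂ b ↔ a = b :=
  HahnSeries.ofPowerSeries_injective.eq_iff

theorem ql_inj (hf : QG f) (hg : QG g) : ql f = ql g ↔ f = g := by
  rw [ql, ql, ofPS_inj, hf.qe_inj hg]

theorem ql_zero : ql 0 = 0 := by
  rw [ql, (QG.qe_eq_zero QG.zero).2 rfl, map_zero]

theorem ql_eq_zero (hf : QG f) : ql f = 0 ↔ f = 0 := by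
  rw [← ql_zero, ql_inj hf QG.zero]

theorem ql_smul (c : ℂ) (hf : QG f) : ql (c • f) = HahnSeries.C c * ql f := by
  rw [ql, hf.qe_smul, ql, PowerSeries.smul_eq_C_mul, map_mul, HahnSeries.ofPowerSeries_C]

theorem ql_one : ql 1 = 1 := by
  have : qe (1 : ℍ → ℂ) = 1 := qExpansion_one 1
  rw [ql, this, map_one]

variable (N)

/-- `x` is represented by the quotient `f / g` of modular forms of weight `k` and level `N`. -/
structure RepF (x : LaurentSeries ℂ) (k : ℤ) (f g : ℍ → ℂ) : Prop where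
  mf : IsMF (G0 N) k f
  mg : IsMF (G0 N) k g
  g0 : g ≠ 0
  eq : x * ql g = ql f

variable {N}

theorem RepF.f_ne {x : LaurentSeries ℂ} (h : RepF N x k f g) (hx : x ≠ 0) : f ≠ 0 := by
  rintro rfl
  have h1 := h.eq
  rw [ql_zero, mul_eq_zero, ql_eq_zero h.mg.qgN] at h1
  exact h1.elim hx h.g0

theorem RepF.mul {x y : LaurentSeries ℂ} {f' g' : ℍ → ℂ} (h : RepF N x k f g)
    (h' : RepF N y l f' g') : RepF N (x * y) (k + l) (f * f') (g * g') where
  mf := h.mf.mul h'.mf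
  mg := h.mg.mul h'.mg
  g0 := by
    intro h0
    rcases (UpperHalfPlane.mul_eq_zero_iff h.mg.holo h'.mg.holo).mp h0 with h1 | h1
    · exact h.g0 h1
    · exact h'.g0 h1
  eq := by
    rw [ql_mul h.mg.qgN h'.mg.qgN, ql_mul h.mf.qgN h'.mf.qgN, ← h.eq, ← h'.eq]
    ring

theorem mul_ne_zero' {f g : ℍ → ℂ} (hf : MDiff f) (hg : MDiff g) (hf0 : f ≠ 0) (hg0 : g ≠ 0) :
    f * g ≠ 0 := by
  intro h0
  rcases (UpperHalfPlane.mul_eq_zero_iff hf hg).mp h0 with h1 | h1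
  · exact hf0 h1
  · exact hg0 h1

theorem RepF.add {x y : LaurentSeries ℂ} {f' g' : ℍ → ℂ} (h : RepF N x k f g)
    (h' : RepF N y l f' g') : RepF N (x + y) (k + l) (f * g' + g * f') (g * g') where
  mf := (h.mf.mul h'.mg).add (h.mg.mul h'.mf)
  mg := h.mg.mul h'.mg
  g0 := mul_ne_zero' h.mg.holo h'.mg.holo h.g0 h'.g0
  eq := by
    rw [ql_mul h.mg.qgN h'.mg.qgN, ql_add (h.mf.qgN.mul h'.mg.qgN) (h.mg.qgN.mul h'.mf.qgN),
      ql_mul h.mf.qgN h'.mg.qgN, ql_mul h.mg.qgN h'.mf.qgN, ← h.eq, ← h'.eq]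
    ring

theorem RepF.inv {x : LaurentSeries ℂ} (h : RepF N x k f g) (hx : x ≠ 0) :
    RepF N x⁻¹ k g f where
  mf := h.mg
  mg := h.mf
  g0 := h.f_ne hx
  eq := by
    rw [← h.eq, inv_mul_cancel_left₀ hx]

theorem RepF.const (c : ℂ) : RepF N (HahnSeries.C c) 0 (c • 1) 1 where
  mf := IsMF.one.smul c
  mg := IsMF.one
  g0 := one_ne_zero
  eq := by rw [ql_smul c QG.one]

variable (N)

/-- the field of modular functions of level `N` as a subfield of `ℂ((q))` -/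
def MFun : Subfield (LaurentSeries ℂ) where
  carrier := {x | ∃ k f g, RepF N x k f g}
  mul_mem' := by
    rintro x y ⟨k, f, g, h⟩ ⟨l, f', g', h'⟩
    exact ⟨_, _, _, h.mul h'⟩
  one_mem' := ⟨0, 1, 1, IsMF.one, IsMF.one, one_ne_zero, by rw [one_mul]⟩
  add_mem' := by
    rintro x y ⟨k, f, g, h⟩ ⟨l, f', g', h'⟩
    exact ⟨_, _, _, h.add h'⟩
  zero_mem' := ⟨0, 0, 1, IsMF.zero, IsMF.one, one_ne_zero, by rw [zero_mul, ql_zero]⟩
  neg_mem' := by
    rintro x ⟨k, f, g, h⟩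
    refine ⟨k, _, g, h.mf.neg, h.mg, h.g0, ?_⟩
    have : -f = (-1 : ℂ) • f := by simp
    rw [this, ql_smul _ h.mf.qgN, ← h.eq, map_neg, map_one]
    ring
  inv_mem' := by
    rintro x ⟨k, f, g, h⟩
    by_cases hx : x = 0
    · subst hx
      exact ⟨0, 0, 1, IsMF.zero, IsMF.one, one_ne_zero, by rw [inv_zero, zero_mul, ql_zero]⟩
    · exact ⟨_, _, _, h.inv hx⟩

variable {N}

theorem mem_MFun {x : LaurentSeries ℂ} : x ∈ MFun N ↔ ∃ k f g, RepF N x k f g := Iff.rfl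

/-- two representations define the same function -/
theorem RepF.cross {x : LaurentSeries ℂ} {f' g' : ℍ → ℂ} (h : RepF N x k f g)
    (h' : RepF N x l f' g') : f * g' = f' * g := by
  rw [← ql_inj (h.mf.qgN.mul h'.mg.qgN) (h'.mf.qgN.mul h.mg.qgN), ql_mul h.mf.qgN h'.mg.qgN,
    ql_mul h'.mf.qgN h.mg.qgN, ← h.eq, ← h'.eq]
  ring

end

end Fermat.Agent.Kum
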