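import Fermat.Agent.Kum.HeckeAct
import Fermat.Agent.HeckeProd.Congr
import Fermat.Agent.GalRep.BGM
import Fermat.Agent.GalRep.Faithful
import Fermat.Agent.Places.Instances

/-!
# Frobenius and inertia, `HasBGM`
-/

set_option autoImplicit false
set_option linter.unusedSectionVars false
set_option linter.style.haveILetI false

open UpperHalfPlane ModularForm Complex Filter Topology Matrix.SpecialLinearGroup
open scoped MatrixGroups Manifold

namespace Fermat.Agent.Kum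

open Fermat.Agent.MFLib ModularCurve AlgebraicCurve Fermat.Agent.ModPoly Fermat.Agent.Curve
  Fermat.Agent.X0Genus Fermat.Agent.JFun Fermat.Agent.Cosets Fermat.Agent.KumF Fermat.Agent.RR
  Fermat.Agent.HeckeHom Fermat.Agent.HeckeProd

noncomputable section

variable {N m : ℕ} [NeZero m] [NeZero N]

section

variable {K : Type*} [Field K] [Algebra ℚ K] [IsAlgClosed K] [CharZero K] (ι : K →+* ℂ)

variable (N m) in
/-- the input from good reduction -/
structure GoodRed (A : ValuationSubring K) : Prop where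
  rigid : ∀ f : FK K N, KD m f → RedTo (valCtx A) f.1 1 → ∃ z : FK K N, z ^ m = f
  scale : ∀ f : FK K N, f ≠ 0 → ∃ c : K, c ≠ 0 ∧ ∃ y : LaurentSeries (IsLocalRing.ResidueField A),
    y ≠ 0 ∧ RedTo (valCtx A) (algebraMap K (FK K N) c * f).1 y

variable {A : ValuationSubring K}

/-- classes have integral representatives -/
theorem GoodRed.exists_rep (G : GoodRed N m A) (ξ : XL N m) (c : ℕ) [NeZero c] :
    ∃ x : FK K N, KD (m * tb N * c) x ∧ cls ι m x = ξ ∧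
      ∃ y : LaurentSeries (IsLocalRing.ResidueField A), y ≠ 0 ∧ RedTo (valCtx A) x.1 y := by
  obtain ⟨x, hx, rfl⟩ := exists_cls_eq (K := K) ι ξ c
  obtain ⟨a, ha, y, hy, h⟩ := G.scale x hx.1
  obtain ⟨b, hb⟩ := IsAlgClosed.exists_pow_nat_eq a (NeZero.pos m)
  have h1 : KD (m * tb N * c) (algebraMap K (FK K N) a * x) := (KD.const ha).mul hx
  refine ⟨_, h1, ?_, y, hy, h⟩
  have h2 : algebraMap K (FK K N) a * x = x * (algebraMap K (FK K N) b) ^ m := by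
    rw [← map_pow, hb, mul_comm]
  have hd : m * tb N ∣ m * tb N * c := dvd_mul_right _ _
  rw [h2]
  apply cls_eq_of_mul_pow ι (hx.of_dvd hd)
  rw [← h2]
  exact h1.of_dvd hd

/-- **inertia acts trivially** -/
theorem rhoF_inertia (G : GoodRed N m A) {σ : K ≃ₐ[ℚ] K} (hσ : σ ∈ A.inertiaSubgroupIn ℚ)
    (ξ : XL N m) : rhoF ι m σ ξ = ξ := by
  obtain ⟨x, hx, rfl, y, hy, h⟩ := G.exists_rep ι ξ 1
  have hx' : Good m x := hx.of_dvd (dvd_mul_right _ _)
  have h1 := h.inertia hy (act_of_mem_inertia hσ)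
  have h2 : Good m (galK σ x / x) := by
    rw [div_eq_mul_inv]; exact (KD.gal σ hx').mul hx'.inv
  obtain ⟨z, hz⟩ := G.rigid (galK σ x / x) (h2.of_dvd (dvd_mul_right _ _)) h1
  rw [rhoF_cls ι σ hx']
  have h3 : galK σ x = x * z ^ m := by
    rw [hz, mul_div_cancel₀ _ hx'.1]
  rw [h3]
  apply cls_eq_of_mul_pow ι hx'
  rw [← h3]
  exact KD.gal σ hx'

variable {S : Set ℕ} {ℓ : ℕ}

/-- **the Eichler-Shimura relation** -/
theorem rhoF_frob (G : GoodRed N m A) (hℓ : ℓ.Prime) (hℓN : ¬ ℓ ∣ N) (hℓS : ℓ ∉ S)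
    (hA : A.LiesOverPrime ℓ) {σ : K ≃ₐ[ℚ] K} (hσ : A.IsFrobeniusAt σ ℓ) (ξ : XL N m) :
    rhoF ι m σ (rhoF ι m σ ξ) - actX N m S (CuspForm.heckeAlgebra.T hℓ hℓN hℓS) (rhoF ι m σ ξ)
      + ℓ • ξ = 0 := by
  haveI : Fact ℓ.Prime := ⟨hℓ⟩
  haveI : NeZero ℓ := ⟨hℓ.ne_zero⟩
  haveI := charP_residue hA
  obtain ⟨ζ', hζ'⟩ : ∃ ζ : K, IsPrimitiveRoot ζ ℓ :=
    HasEnoughRootsOfUnity.exists_primitiveRoot K ℓ
  obtain ⟨ζ, rfl⟩ : IsUnit ζ' := hζ'.isUnit (NeZero.ne ℓ)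
  have hζ : IsPrimitiveRoot ζ ℓ := IsPrimitiveRoot.coe_units_iff.1 hζ'
  obtain ⟨x, hx, rfl, y, hy, h⟩ := G.exists_rep ι ξ (6 * N)
  have hx' : Good m x := hx.of_dvd (dvd_mul_right _ _)
  rw [mul_comm] at hx
  have h1 := h.eichlerShimura hζ hy (act_of_isFrobeniusAt hσ)
  have hT : Good m (TTK ι hℓ hℓN hζ (galK σ x)) := KD.TTK ι hℓ hℓN hζ (hx.gal σ)
  have hσx : Good m (galK σ x) := KD.gal σ hx'
  have hσσx : Good m (galK σ (galK σ x)) := KD.gal σ hσx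
  have hden : Good m (x ^ ℓ * galK σ (galK σ x)) := (hx'.pow ℓ).mul hσσx
  have h2 : Good m (TTK ι hℓ hℓN hζ (galK σ x) / (x ^ ℓ * galK σ (galK σ x))) := by
    rw [div_eq_mul_inv]; exact hT.mul hden.inv
  obtain ⟨z, hz⟩ := G.rigid _ (h2.of_dvd (dvd_mul_right _ _)) h1
  have h3 : TTK ι hℓ hℓN hζ (galK σ x) = (x ^ ℓ * galK σ (galK σ x)) * z ^ m := by
    rw [hz, mul_div_cancel₀ _ hden.1]
  have h4 : cls ι m (TTK ι hℓ hℓN hζ (galK σ x)) = ℓ • cls ι m x + cls ι m (galK σ (galK σ x)) := by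
    rw [h3, cls_eq_of_mul_pow ι hden (by rw [← h3]; exact hT), cls_mul ι (hx'.pow ℓ) hσσx,
      cls_pow ι hx']
  rw [cls_TTK ι hℓ hℓN hℓS hζ (hx.gal σ)] at h4
  rw [rhoF_cls ι σ hx', rhoF_cls ι σ hσx, h4]
  abel

end

/-! ### assembly -/

open Fermat.Agent.GalRep

variable (N m) in
/-- the Hecke module structure -/
abbrev modX (p : ℕ) : Module (T₀ N p) (XL N m) := Module.compHom (XL N m) (actX N m (badSet N p))

variable (N) in
/-- the Hecke module structure -/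
abbrev modL (p : ℕ) : Module (T₀ N p) (LZ N) := Module.compHom (LZ N) (actL N (badSet N p))

theorem hasBGM_of_goodRed (p : ℕ) [Fact p.Prime] (ι : AlgebraicClosure ℚ →+* ℂ)
    (hG : ∀ (m ℓ : ℕ), ℓ.Prime → ¬ ℓ ∣ N → ¬ ℓ ∣ m → ∀ A : ValuationSubring (AlgebraicClosure ℚ),
      A.LiesOverPrime ℓ → GoodRed N m A) : HasBGM N p := by
  have hp : p ≠ 0 := (Fact.out : p.Prime).ne_zero
  letI := modL N p
  obtain ⟨c, hc⟩ := exists_faithful_bound (T := T₀ N p) (L := LZ N) (fun a ha => by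
    apply actL_injective N
    rw [map_zero]
    exact LinearMap.ext ha) p hp
  intro n
  set m : ℕ := p ^ (n + c) with hm
  haveI : NeZero m := ⟨pow_ne_zero _ hp⟩
  letI := modX N m p
  have hS : ∀ q, q ∣ N → q ∈ badSet N p := fun q hq => dvd_mul_of_dvd_left hq p
  have hlm : ∀ q : ℕ, q.Prime → q ∉ badSet N p → ¬ q ∣ m := by
    intro q hq hqS hqm
    apply hqS
    exact dvd_mul_of_dvd_right (hq.dvd_of_dvd_pow hqm) N
  let ρ : GQ →* Module.End (T₀ N p) (XL N m) :=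
    { toFun := fun σ =>
        { toFun := rhoF ι m σ
          map_add' := rhoF_add ι σ
          map_smul' := fun a ξ => rhoF_act ι hS σ a ξ }
      map_one' := LinearMap.ext fun ξ => rhoF_one ι ξ
      map_mul' := fun σ τ => LinearMap.ext fun ξ => rhoF_mul ι σ τ ξ }
  refine ⟨XL N m, inferInstance, inferInstance, ρ, ?_, ?_, ?_, ?_, ?_⟩
  · refine ⟨n + c, fun ξ => ?_⟩
    obtain ⟨φ, rfl⟩ := mkX_surjective ξ
    exact mkX_nsmul φ
  · obtain ⟨L, hL, h⟩ := exists_level_rhoF (N := N) (m := m) (K := AlgebraicClosure ℚ) ι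
    exact ⟨L, hL, fun σ hσ => LinearMap.ext fun ξ => h σ hσ ξ⟩
  · intro q hq hqS A hA σ hσ
    refine LinearMap.ext fun ξ => ?_
    exact rhoF_inertia ι (hG m q hq (fun h => hqS (dvd_mul_of_dvd_left h p)) (hlm q hq hqS) A hA)
      hσ ξ
  · intro ℓ hℓ hℓS A hA σ hσ ξ
    exact rhoF_frob ι (hG m ℓ hℓ (not_dvd_of_notMem_badSet hℓS) (hlm ℓ hℓ hℓS) A hA) hℓ
      (not_dvd_of_notMem_badSet hℓS) hℓS hA hσ ξ
  · intro a ha
    obtain ⟨b, hb⟩ := hc n a (fun φ => by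
      have h1 : (mkX (actL N (badSet N p) a φ) : XL N m) = mkX 0 := by
        rw [map_zero]
        exact ha (mkX φ)
      rw [mkX_eq_iff, redI_zero, redI_eq_zero] at h1
      obtain ⟨ψ, hψ⟩ := h1
      exact ⟨ψ, hψ⟩)
    exact ⟨b, hb⟩

end

end Fermat.Agent.Kum
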