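import Fermat.Agent.Kum.Root
import Fermat.Agent.KumF.Full

/-!
# Galois action on the modular function field, functions with divisor divisible by `m`
-/

set_option autoImplicit false
set_option linter.unusedSectionVars false

open UpperHalfPlane ModularForm Complex Filter Topology Matrix.SpecialLinearGroup
open scoped MatrixGroups Manifold

namespace Fermat.Agent.Kum

open Fermat.Agent.MFLib ModularCurve AlgebraicCurve Fermat.Agent.ModPoly Fermat.Agent.Curve
  Fermat.Agent.X0Genus Fermat.Agent.JFun Fermat.Agent.Cosets Fermat.Agent.KumF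

noncomputable section

variable {K : Type*} [Field K] [Algebra ℚ K] {N : ℕ} [NeZero N]

/-! ### Galois action -/

/-- the action of field automorphisms on the coefficients -/
def galK (σ : K ≃ₐ[ℚ] K) : FK K N →+* FK K N :=
  ((coeffMap (σ : K →+* K)).comp (algebraMap (FK K N) (LaurentSeries K))).codRestrict (FK K N)
    fun x => coeffMap_mem_laurentBaseChange σ x.2

theorem coe_galK (σ : K ≃ₐ[ℚ] K) (x : FK K N) :
    ((galK σ x : FK K N) : LaurentSeries K) = coeffMap (σ : K →+* K) x.1 := rfl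

theorem galK_mul (σ τ : K ≃ₐ[ℚ] K) (x : FK K N) : galK (σ * τ) x = galK σ (galK τ x) := by
  apply Subtype.ext
  rw [coe_galK, coe_galK, coe_galK, coeffMap_coeffMap]
  rfl

theorem galK_one (x : FK K N) : galK (1 : K ≃ₐ[ℚ] K) x = x := by
  apply Subtype.ext
  rw [coe_galK]
  exact coeffMap_id _

theorem galK_inv (σ : K ≃ₐ[ℚ] K) (x : FK K N) : galK σ (galK σ⁻¹ x) = x := by
  rw [← galK_mul, mul_inv_cancel, galK_one]

theorem galK_inv' (σ : K ≃ₐ[ℚ] K) (x : FK K N) : galK σ⁻¹ (galK σ x) = x := by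
  rw [← galK_mul, inv_mul_cancel, galK_one]

theorem galK_algebraMap (σ : K ≃ₐ[ℚ] K) (a : K) :
    galK σ (algebraMap K (FK K N) a) = algebraMap K (FK K N) (σ a) := by
  apply Subtype.ext
  rw [coe_galK]
  exact coeffMap_algebraMap (σ : K →+* K) a

theorem galK_jj [IsAlgClosed K] [CharZero K] (σ : K ≃ₐ[ℚ] K) : galK σ (jj K N) = jj K N := by
  apply Subtype.ext
  rw [coe_galK, coe_jj]
  exact coeffMap_jqModC _

theorem galK_ne_zero (σ : K ≃ₐ[ℚ] K) {x : FK K N} (hx : x ≠ 0) : galK σ x ≠ 0 := by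
  rwa [ne_eq, map_eq_zero]

/-- Galois action on places -/
theorem exists_place_galK (σ : K ≃ₐ[ℚ] K) (v : Place K (FK K N)) :
    ∃ (v' : Place K (FK K N)) (c : ℤ), 0 < c ∧ ∀ f : FK K N, f ≠ 0 →
      v.ord (galK σ f) = c * v'.ord f := by
  apply exists_place_of_valuation (K := K) (fun f : FK K N => v.ord (galK σ f))
  · intro f g hf hg
    simp only [map_mul]
    exact v.ord_mul (galK_ne_zero σ hf) (galK_ne_zero σ hg)
  · intro f g hf hg hfg
    simp only [map_add]
    exact le_ord_add v (by rw [← map_add]; exact galK_ne_zero σ hfg) (min_le_left _ _)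
      (min_le_right _ _) (galK_ne_zero σ hf) (galK_ne_zero σ hg)
  · intro a ha
    simp only [galK_algebraMap]
    exact ord_algebraMap v _
  · obtain ⟨f, hf, h1⟩ := exists_ord_eq v 1
    refine ⟨galK σ⁻¹ f, galK_ne_zero _ hf, ?_⟩
    simp only [galK_inv, h1]
    exact one_ne_zero

/-! ### functions with divisor divisible by `m` -/

/-- the divisor of `x` is divisible by `m` -/
def KD (m : ℕ) (x : FK K N) : Prop := x ≠ 0 ∧ ∀ v : Place K (FK K N), (m : ℤ) ∣ v.ord x

namespace KD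

variable {m : ℕ} {x y : FK K N}

theorem mul (hx : KD m x) (hy : KD m y) : KD m (x * y) :=
  ⟨mul_ne_zero hx.1 hy.1, fun v => by
    rw [v.ord_mul hx.1 hy.1]; exact dvd_add (hx.2 v) (hy.2 v)⟩

theorem ord_inv' (v : Place K (FK K N)) {x : FK K N} (hx : x ≠ 0) : v.ord x⁻¹ = - v.ord x := by
  have h := v.ord_mul hx (inv_ne_zero hx)
  rw [mul_inv_cancel₀ hx] at h
  have h1 : v.ord (1 : FK K N) = 0 := by
    have := ord_algebraMap v (1 : K)
    rwa [map_one] at this
  rw [h1] at h
  linarith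

theorem inv (hx : KD m x) : KD m x⁻¹ :=
  ⟨inv_ne_zero hx.1, fun v => by
    rw [ord_inv' v hx.1]; exact (dvd_neg).2 (hx.2 v)⟩

theorem pow (hx : KD m x) (n : ℕ) : KD m (x ^ n) :=
  ⟨pow_ne_zero _ hx.1, fun v => by rw [ord_pow]; exact Dvd.dvd.mul_left (hx.2 v) _⟩

theorem pow_self (hx : x ≠ 0) : KD m (x ^ m) :=
  ⟨pow_ne_zero _ hx, fun v => by rw [ord_pow]; exact dvd_mul_right _ _⟩

theorem of_dvd {n : ℕ} (h : n ∣ m) (hx : KD m x) : KD n x :=
  ⟨hx.1, fun v => (Int.natCast_dvd_natCast.2 h).trans (hx.2 v)⟩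

theorem const {a : K} (ha : a ≠ 0) : KD m (algebraMap K (FK K N) a) :=
  ⟨by rwa [ne_eq, map_eq_zero], fun v => by rw [ord_algebraMap]; exact dvd_zero _⟩

theorem gal (σ : K ≃ₐ[ℚ] K) (hx : KD m x) : KD m (galK σ x) := by
  refine ⟨galK_ne_zero σ hx.1, fun v => ?_⟩
  obtain ⟨v', c, -, h⟩ := exists_place_galK σ v
  rw [h x hx.1]
  exact Dvd.dvd.mul_left (hx.2 v') _

variable (ι : K →+* ℂ)

theorem coeffMap_ne_zero {x : FK K N} (hx : x ≠ 0) : coeffMap ι x.1 ≠ 0 := by
  rw [ne_eq, map_eq_zero]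
  intro h0
  exact hx (Subtype.ext h0)

/-- analytic orders are divisible by `m` -/
theorem dvd_val (hx : KD m x) (V : FVal N) : (m : ℤ) ∣ V.val (coeffMap ι x.1) := by
  by_cases hnt : ∃ f : FK K N, f ≠ 0 ∧ V.val (coeffMap ι f.1) ≠ 0
  · obtain ⟨v, c, -, h⟩ := exists_place_of_valuation (K := K)
      (fun f : FK K N => V.val (coeffMap ι f.1))
      (fun f g hf hg => by
        have := V.val_mul (coeffMap_mem_MFun ι f.2) (coeffMap_mem_MFun ι g.2)
          (coeffMap_ne_zero ι hf) (coeffMap_ne_zero ι hg)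
        rw [← map_mul] at this
        exact this)
      (fun f g hf hg hfg => by
        have := V.val_add (coeffMap_mem_MFun ι f.2) (coeffMap_mem_MFun ι g.2)
          (coeffMap_ne_zero ι hf) (coeffMap_ne_zero ι hg) (by
            have h1 := coeffMap_ne_zero ι hfg
            change coeffMap ι (f.1 + g.1) ≠ 0 at h1
            rwa [map_add] at h1)
        rw [← map_add] at this
        exact this)
      (fun a ha => by
        have h1 : coeffMap ι ((algebraMap K (FK K N) a : FK K N) : LaurentSeries K) =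
            HahnSeries.C (ι a) := by
          change coeffMap ι (algebraMap K (LaurentSeries K) a) = _
          rw [algebraMap_laurentSeries_eq_single, coeffMap_single]
          rfl
        change V.val (coeffMap ι ((algebraMap K (FK K N) a : FK K N) : LaurentSeries K)) = 0
        rw [h1]
        exact V.val_const _ (by rwa [ne_eq, map_eq_zero]))
      hnt
    rw [h x hx.1]
    exact Dvd.dvd.mul_left (hx.2 v) _
  · push Not at hnt
    rw [hnt x hx.1]
    exact dvd_zero _

/-- the Kummer character -/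
theorem exists_rep [NeZero m] (hx : KD m x) : ∃ φ : Additive (G0 N) →+ ZMod m,
    Period.IsParabolicHom (G0 N) φ ∧ Rep N (coeffMap ι x.1) φ :=
  exists_rep_of_dvd (coeffMap_mem_MFun ι x.2) (coeffMap_ne_zero ι hx.1)
    (fun _ => hx.dvd_val ι _) (fun _ _ _ _ => hx.dvd_val ι _)

end KD

variable [IsAlgClosed K] [CharZero K] (ι : K →+* ℂ)

/-- A function with a Kummer character is divisible up to a bounded loss. -/
theorem KD_of_rep {m : ℕ} [NeZero m] {x : FK K N} {φ : Additive (G0 N) →+ ZMod (6 * N * m)}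
    (hφ : Period.IsParabolicHom (G0 N) φ) (h : Rep N (coeffMap ι x.1) φ) : KD m x := by
  have hx0 : x ≠ 0 := by
    rintro rfl
    exact h.ne_zero (map_zero _)
  obtain ⟨k, u, g, h⟩ := h
  refine ⟨hx0, fun v => ?_⟩
  have hT : ∀ δ : SL(2, ℤ), QW N (u ∣[k] δ) := by
    intro δ
    refine ⟨?_, holo_slash h.hu.holo k δ, h.hu.bdd δ⟩
    apply periodic_of_slash_T_pow (k := k)
    have h1 : δ * ModularGroup.T ^ N = (δ * ModularGroup.T ^ N * δ⁻¹) * δ := by group
    have h2 := h.hs ⟨_, T_N_mem δ⟩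
    rw [hφ ⟨_, T_N_mem δ⟩ ?_, ech_zero, one_smul] at h2
    · rw [← SlashAction.slash_mul, h1, SlashAction.slash_mul]
      change (u ∣[k] (δ * ModularGroup.T ^ N * δ⁻¹)) ∣[k] δ = _
      rw [h2]
    · change ((δ * ModularGroup.T ^ N * δ⁻¹ : SL(2, ℤ)) : Matrix (Fin 2) (Fin 2) ℤ).trace ^ 2 = 4
      have h5 : ((ModularGroup.T ^ N : SL(2, ℤ)) : Matrix (Fin 2) (Fin 2) ℤ) =
          !![1, (N : ℤ); 0, 1] := by
        rw [← zpow_natCast, ModularGroup.coe_T_zpow]
      have h6 : ((δ * ModularGroup.T ^ N * δ⁻¹ : SL(2, ℤ)) : Matrix (Fin 2) (Fin 2) ℤ).trace =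
          ((ModularGroup.T ^ N : SL(2, ℤ)) : Matrix (Fin 2) (Fin 2) ℤ).trace := by
        rw [Matrix.SpecialLinearGroup.coe_mul, Matrix.trace_mul_comm,
          ← Matrix.SpecialLinearGroup.coe_mul, ← mul_assoc, inv_mul_cancel, one_mul]
      rw [h6, h5, Matrix.trace_fin_two]
      norm_num
  have hu' : ∀ δ : SL(2, ℤ), u ∣[k] δ ≠ 0 := fun δ => by
    rw [ne_eq, slash_eq_zero_iff]; exact h.u0
  have hg' : ∀ δ : SL(2, ℤ), g ∣[k] δ ≠ 0 := fun δ => by
    rw [ne_eq, slash_eq_zero_iff]; exact h.g0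
  have key := dvd_ord_of_rep (ι := ι) hx0 h.repF (m := 6 * N * m)
    (fun τ δ => by
      rw [pow_slash_SL, pow_slash_SL, oAt_pow (holo_slash h.hu.holo k δ) (hu' δ),
        oAt_pow (holo_slash h.hg.holo k δ) (hg' δ)]
      push_cast
      exact dvd_sub (dvd_mul_right _ _) (dvd_mul_right _ _))
    (fun δ => by
      rw [pow_slash_SL, pow_slash_SL, oQ_pow (NeZero.pos N) (hT δ) (hu' δ),
        oQ_pow (NeZero.pos N) (qw_slash (T_N_mem δ) h.hg) (hg' δ)]
      push_cast
      exact dvd_sub (dvd_mul_right _ _) (dvd_mul_right _ _)) v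
  push_cast at key
  have hN : (6 * (N : ℤ)) ≠ 0 := by
    have := NeZero.ne N
    positivity
  exact Int.dvd_of_mul_dvd_mul_left hN key

end

end Fermat.Agent.Kum
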