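import Fermat.Agent.Kum.Action
import Fermat.Agent.HeckeProd.QExp

/-!
# Hecke operators on Kummer classes
-/

set_option autoImplicit false
set_option linter.unusedSectionVars false

open UpperHalfPlane ModularForm Complex Filter Topology Matrix.SpecialLinearGroup
open scoped MatrixGroups Manifold

namespace Fermat.Agent.Kum

open Fermat.Agent.MFLib ModularCurve AlgebraicCurve Fermat.Agent.ModPoly Fermat.Agent.Curve
  Fermat.Agent.X0Genus Fermat.Agent.JFun Fermat.Agent.Cosets Fermat.Agent.KumF Fermat.Agent.RR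
  Fermat.Agent.HeckeHom Fermat.Agent.HeckeProd

noncomputable section

variable {N m : ℕ} [NeZero m] [NeZero N]

/-- `ech` as a homomorphism -/
def echHom (m : ℕ) [NeZero m] : ZMod m →+ Additive ℂˣ where
  toFun a := Additive.ofMul (Units.mk0 (ech a) (ech_ne_zero a))
  map_zero' := by
    apply Additive.toMul.injective
    ext
    exact ech_zero
  map_add' a b := by
    apply Additive.toMul.injective
    ext
    exact ech_add a b

lemma coe_echHom (a : ZMod m) : ((echHom m a).toMul : ℂ) = ech a := rfl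

variable {k : ℤ} {u g : ℍ → ℂ}

/-- forms with parabolic character have a `q`-expansion -/
theorem RepU.qg {x : LaurentSeries ℂ} {φ : Additive (G0 N) →+ ZMod m}
    (hφ : Period.IsParabolicHom (G0 N) φ) (h : RepU N x φ k u g) : QG u := by
  refine ⟨?_, h.hu.holo, h.hu.bdd_self⟩
  have h1 : u ∣[k] (ModularGroup.T ^ 1 : SL(2, ℤ)) = u := by
    rw [pow_one]
    have h2 := h.hs ⟨ModularGroup.T, T_mem_Gamma0 N⟩
    rw [hφ ⟨ModularGroup.T, T_mem_Gamma0 N⟩ (by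
      rw [Matrix.trace_fin_two]
      simp [ModularGroup.T]), ech_zero, one_smul] at h2
    exact h2
  have := periodic_of_slash_T_pow (k := k) (f := u) (M := 1) h1
  simpa using this

variable {ℓ : ℕ} [NeZero ℓ]

theorem Rep.TT (hℓ : ℓ.Prime) (hℓN : ¬ ℓ ∣ N) {ζ : ℂˣ} (hζ : IsPrimitiveRoot ζ ℓ)
    {x : LaurentSeries ℂ} {φ : Additive (G0 N) →+ ZMod m}
    (hφ : Period.IsParabolicHom (G0 N) φ) (h : Rep N x φ) :
    Rep N (HeckeProd.TT hζ x) (opT N hℓ hℓN (ZMod m) φ) := by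
  obtain ⟨k, u, g, h⟩ := h
  have hu := h.qg hφ
  have hg := h.hg.qgN
  refine ⟨((ℓ + 1 : ℕ) : ℤ) * k, TTf k ℓ u, TTf k ℓ g, HB_TTf ℓ h.hu, TTf_ne_zero ℓ h.hu.holo h.u0,
    fun γ => ?_, isMF_TTf ℓ hℓ hℓN h.hg, TTf_ne_zero ℓ h.hg.holo h.g0, ?_⟩
  · have h1 : HasChar N k ((echHom m).comp φ) u := fun γ => h.hs γ
    have h2 := hasChar_TTf ℓ hℓ hℓN h1 γ
    rw [← comp_opT] at h2
    exact h2
  · have h3 := congrArg (HeckeProd.TT hζ) h.eq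
    rw [map_mul, map_pow, ql_pow hu, map_pow] at h3
    rw [ql_pow (qg_TTf hu), ql_TTf hu hζ, ql_TTf hg hζ, mul_pow, mul_pow, ← h3]
    ring

section

variable {K : Type*} [Field K] [Algebra ℚ K] [IsAlgClosed K] [CharZero K] (ι : K →+* ℂ)

theorem exists_primitive (ℓ : ℕ) [NeZero ℓ] : ∃ ζ : ℂˣ, IsPrimitiveRoot ζ ℓ :=
  ⟨zt ℓ, zt_primitive⟩

include ι in
theorem TT_mem_FK (hℓ : ℓ.Prime) (hℓN : ¬ ℓ ∣ N) {ζ : Kˣ} (hζ : IsPrimitiveRoot ζ ℓ)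
    {x : LaurentSeries K} (hx : x ∈ FK K N) : HeckeProd.TT hζ x ∈ FK K N := by
  apply mem_FK_of_mem_MFun ι N
  rw [coeffMap_TT_of_injective ι ι.injective hζ (zt_primitive (ℓ := ℓ))]
  exact TT_mem_MFun hℓ hℓN _ (coeffMap_mem_MFun ι hx)

/-- the Hecke operator on functions -/
def TTK (hℓ : ℓ.Prime) (hℓN : ¬ ℓ ∣ N) {ζ : Kˣ} (hζ : IsPrimitiveRoot ζ ℓ) (x : FK K N) : FK K N :=
  ⟨HeckeProd.TT hζ x.1, TT_mem_FK ι hℓ hℓN hζ x.2⟩

theorem rep_TTK (hℓ : ℓ.Prime) (hℓN : ¬ ℓ ∣ N) {ζ : Kˣ} (hζ : IsPrimitiveRoot ζ ℓ) {x : FK K N}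
    {φ : Additive (G0 N) →+ ZMod m} (hφ : Period.IsParabolicHom (G0 N) φ)
    (h : Rep N (coeffMap ι x.1) φ) :
    Rep N (coeffMap ι (TTK ι hℓ hℓN hζ x).1) (opT N hℓ hℓN (ZMod m) φ) := by
  change Rep N (coeffMap ι (HeckeProd.TT hζ x.1)) _
  rw [coeffMap_TT_of_injective ι ι.injective hζ (zt_primitive (ℓ := ℓ))]
  exact h.TT hℓ hℓN _ hφ

theorem KD.TTK (hℓ : ℓ.Prime) (hℓN : ¬ ℓ ∣ N) {ζ : Kˣ} (hζ : IsPrimitiveRoot ζ ℓ) {x : FK K N}
    (hx : KD (6 * N * m) x) : KD m (Kum.TTK ι hℓ hℓN hζ x) := by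
  obtain ⟨φ, hφ, h⟩ := hx.exists_rep ι
  exact KD_of_rep ι (isParabolicHom_opT hℓ hℓN hφ) (rep_TTK ι hℓ hℓN hζ hφ h)

theorem galK_TTK (hℓ : ℓ.Prime) (hℓN : ¬ ℓ ∣ N) {ζ : Kˣ} (hζ : IsPrimitiveRoot ζ ℓ) (x : FK K N)
    (σ : K ≃ₐ[ℚ] K) : galK σ (TTK ι hℓ hℓN hζ x) = TTK ι hℓ hℓN hζ (galK σ x) := by
  apply Subtype.ext
  change coeffMap (σ : K →+* K) (HeckeProd.TT hζ x.1) =
    HeckeProd.TT hζ (coeffMap (σ : K →+* K) x.1)
  exact coeffMap_TT_of_injective _ (RingHom.injective _) hζ hζ _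

end

/-! ### the Hecke algebra acts on `XL` -/

variable {S : Set ℕ}

variable (N m S) in
/-- the Hecke algebra acts on `XL N m` -/
def actX : CuspForm.heckeAlgebra N 2 S →+* AddMonoid.End (XL N m) where
  toFun t := QuotientAddGroup.map (mL N m) (mL N m) (actL N S t).toAddMonoidHom (by
    rintro _ ⟨φ, rfl⟩
    exact ⟨actL N S t φ, (map_nsmul (actL N S t) m φ).symm⟩)
  map_one' := by
    refine AddMonoidHom.ext fun ξ => ?_
    obtain ⟨φ, rfl⟩ := mkX_surjective ξ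
    change mkX (actL N S 1 φ) = mkX φ
    rw [map_one]; rfl
  map_mul' s t := by
    refine AddMonoidHom.ext fun ξ => ?_
    obtain ⟨φ, rfl⟩ := mkX_surjective ξ
    change mkX (actL N S (s * t) φ) = mkX (actL N S s (actL N S t φ))
    rw [map_mul]; rfl
  map_zero' := by
    refine AddMonoidHom.ext fun ξ => ?_
    obtain ⟨φ, rfl⟩ := mkX_surjective ξ
    change mkX (actL N S 0 φ) = 0
    rw [map_zero, LinearMap.zero_apply, map_zero]
  map_add' s t := by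
    refine AddMonoidHom.ext fun ξ => ?_
    obtain ⟨φ, rfl⟩ := mkX_surjective ξ
    change mkX (actL N S (s + t) φ) = mkX (actL N S s φ) + mkX (actL N S t φ)
    rw [map_add, LinearMap.add_apply, map_add]

lemma actX_mkX (t : CuspForm.heckeAlgebra N 2 S) (φ : LZ N) :
    actX N m S t (mkX φ) = mkX (actL N S t φ) := rfl

section

variable {K : Type*} [Field K] [Algebra ℚ K] [IsAlgClosed K] [CharZero K] (ι : K →+* ℂ)

/-- the class of `T_ℓ x` -/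
theorem cls_TTK (hℓ : ℓ.Prime) (hℓN : ¬ ℓ ∣ N) (hℓS : ℓ ∉ S) {ζ : Kˣ} (hζ : IsPrimitiveRoot ζ ℓ)
    {x : FK K N} (hx : KD (6 * N * (m * tb N)) x) :
    cls ι m (TTK ι hℓ hℓN hζ x) =
      actX N m S (CuspForm.heckeAlgebra.T hℓ hℓN hℓS) (cls ι m x) := by
  have hx' : Good m x := hx.of_dvd (Dvd.intro_left (6 * N) rfl)
  obtain ⟨φ, hφ⟩ := hx'.exists_mk ι
  rw [cls_eq ι hx' hφ, actX_mkX]
  apply cls_eq ι (KD.TTK ι hℓ hℓN hζ hx)
  have h1 : redI m (actL N S (CuspForm.heckeAlgebra.T hℓ hℓN hℓS) φ) =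
      opT N hℓ hℓN (ZMod m) (redI m φ) := by
    rw [redI, actL_T, comp_opT]
    rfl
  rw [h1]
  exact rep_TTK ι hℓ hℓN hζ (redI_parabolic φ) hφ

theorem rhoF_T (hℓ : ℓ.Prime) (hℓN : ¬ ℓ ∣ N) (hℓS : ℓ ∉ S) (σ : K ≃ₐ[ℚ] K) (ξ : XL N m) :
    rhoF ι m σ (actX N m S (CuspForm.heckeAlgebra.T hℓ hℓN hℓS) ξ) =
      actX N m S (CuspForm.heckeAlgebra.T hℓ hℓN hℓS) (rhoF ι m σ ξ) := by
  obtain ⟨ζ', hζ'⟩ : ∃ ζ : K, IsPrimitiveRoot ζ ℓ :=
    HasEnoughRootsOfUnity.exists_primitiveRoot K ℓ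
  obtain ⟨ζ, rfl⟩ : IsUnit ζ' := hζ'.isUnit (NeZero.ne ℓ)
  have hζ : IsPrimitiveRoot ζ ℓ := IsPrimitiveRoot.coe_units_iff.1 hζ'
  obtain ⟨x, hx, rfl⟩ := exists_cls_eq (K := K) ι ξ (6 * N)
  have hx' : Good m x := hx.of_dvd (dvd_mul_right _ _)
  rw [mul_comm] at hx
  rw [← cls_TTK ι hℓ hℓN hℓS hζ hx, rhoF_cls ι σ (KD.TTK ι hℓ hℓN hζ hx), rhoF_cls ι σ hx',
    galK_TTK, cls_TTK ι hℓ hℓN hℓS hζ (hx.gal σ)]

variable (hS : ∀ q, q ∣ N → q ∈ S)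
include hS

/-- the Galois action commutes with the Hecke algebra -/
theorem rhoF_act (σ : K ≃ₐ[ℚ] K) (t : CuspForm.heckeAlgebra N 2 S) (ξ : XL N m) :
    rhoF ι m σ (actX N m S t ξ) = actX N m S t (rhoF ι m σ ξ) := by
  obtain ⟨t, ht⟩ := t
  let r : XL N m →+ XL N m := AddMonoidHom.mk' (rhoF ι m σ) (rhoF_add ι σ)
  have hr : ∀ ξ, rhoF ι m σ ξ = r ξ := fun _ => rfl
  simp only [hr]
  induction ht using Algebra.adjoin_induction generalizing ξ with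
  | mem x hx =>
    rcases hx with ⟨ℓ, hℓ, hℓN, hℓS, rfl⟩ | ⟨q, hqN, hq, hqS, rfl⟩
    · haveI : NeZero ℓ := ⟨hℓ.ne_zero⟩
      exact rhoF_T ι hℓ hℓN hℓS σ ξ
    · exact absurd (hS q hqN) hqS
  | algebraMap n =>
    have h1 : (⟨algebraMap ℤ _ n, Subalgebra.algebraMap_mem _ n⟩ : CuspForm.heckeAlgebra N 2 S) =
      ((n : ℤ) : CuspForm.heckeAlgebra N 2 S) := by
      apply Subtype.ext
      simp
    have h2 : ∀ ξ : XL N m, actX N m S
        ⟨algebraMap ℤ _ n, Subalgebra.algebraMap_mem _ n⟩ ξ = n • ξ := by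
      intro ξ
      refine (DFunLike.congr_fun (congrArg (actX N m S) h1) ξ).trans ?_
      rw [map_intCast]
      rfl
    rw [h2, h2, map_zsmul]
  | add x y hx hy ihx ihy =>
    have h1 : (⟨x + y, add_mem hx hy⟩ : CuspForm.heckeAlgebra N 2 S) = ⟨x, hx⟩ + ⟨y, hy⟩ := rfl
    have h2 : ∀ ξ : XL N m, actX N m S ⟨x + y, add_mem hx hy⟩ ξ =
        actX N m S ⟨x, hx⟩ ξ + actX N m S ⟨y, hy⟩ ξ := by
      intro ξ
      rw [h1, map_add]; rfl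
    rw [h2, h2, map_add, ihx, ihy]
  | mul x y hx hy ihx ihy =>
    have h1 : (⟨x * y, mul_mem hx hy⟩ : CuspForm.heckeAlgebra N 2 S) = ⟨x, hx⟩ * ⟨y, hy⟩ := rfl
    have h2 : ∀ ξ : XL N m, actX N m S ⟨x * y, mul_mem hx hy⟩ ξ =
        actX N m S ⟨x, hx⟩ (actX N m S ⟨y, hy⟩ ξ) := by
      intro ξ
      rw [h1, map_mul]; rfl
    rw [h2, h2, ihx, ihy]

end

end

end Fermat.Agent.Kum
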