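import Fermat.Agent.Kum.Val
import Fermat.Agent.X0Genus.Analytic

/-!
# Comparison of the analytic valuations with the places of the modular function field
-/

set_option autoImplicit false
set_option linter.unusedSectionVars false

open UpperHalfPlane ModularForm Complex Filter Topology Matrix.SpecialLinearGroup
open scoped MatrixGroups Manifold

namespace Fermat.Agent.Kum

open Fermat.Agent.MFLib ModularCurve AlgebraicCurve Fermat.Agent.ModPoly Fermat.Agent.Curve
  Fermat.Agent.X0Genus Fermat.Agent.JFun Fermat.Agent.Cosets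

noncomputable section

local notation "Δ" => ModularForm.discriminant
local notation "𝕢" => Function.Periodic.qParam

variable {N : ℕ} {k l : ℤ} {f g : ℍ → ℂ}

/-! ### `q_w`-expansions as convergent series -/

/-- the `q_w`-expansion as a Laurent series -/
def qlw (w : ℕ) (f : ℍ → ℂ) : LaurentSeries ℂ :=
  HahnSeries.ofPowerSeries ℤ ℂ (qExpansion w f)

theorem QW.conv {w : ℕ} (hw : 0 < w) (hf : QW w f) : Conv (qlw w f) :=
  conv_ofPowerSeries fun z _ hz1 => by
    have := UpperHalfPlane.hasSum_qExpansion_of_norm_lt (h := w) (by exact_mod_cast hw)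
      hf.per hf.holo hf.bdd hz1
    simpa only [smul_eq_mul] using this.summable

/-- the convergent series of a function with a `q_w`-expansion -/
def QW.cv {w : ℕ} [NeZero w] (hf : QW w f) : ConvL := ⟨qlw w f, hf.conv (NeZero.pos w)⟩

theorem QW.evPh_cv {w : ℕ} [NeZero w] (hf : QW w f) : evPh w hf.cv = ⟨f, hf.holo⟩ := by
  apply Subtype.ext
  funext τ
  rw [evPh_apply]
  have := UpperHalfPlane.hasSum_qExpansion (h := w) (by exact_mod_cast NeZero.pos w)
    hf.per hf.holo hf.bdd τ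
  simp only [smul_eq_mul] at this
  exact (hasSum_ofPowerSeries this).tsum_eq

theorem _root_.Fermat.Agent.MFLib.QG.qw (hf : QG f) : QW 1 f where
  per := by simpa using hf.per
  holo := hf.holo
  bdd := hf.bdd

theorem qlw_one : qlw 1 f = ql f := by
  rw [qlw, ql, qe]
  norm_num

theorem order_ofPS {a : PowerSeries ℂ} (ha : a ≠ 0) :
    (HahnSeries.ofPowerSeries ℤ ℂ a).order = (a.order.toNat : ℤ) := by
  have hc : ∀ k : ℕ, (HahnSeries.ofPowerSeries ℤ ℂ a).coeff (k : ℤ) = a.coeff k :=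
    fun k => HahnSeries.ofPowerSeries_apply_coeff _ _
  have h1 : a.coeff a.order.toNat ≠ 0 := PowerSeries.coeff_order ha
  refine order_eq_of ?_ ?_
  · rw [hc]; exact h1
  · intro m hm
    rcases lt_or_ge m 0 with h5 | h5
    · exact ofPowerSeries_coeff_of_neg _ h5
    · obtain ⟨n, rfl⟩ := Int.eq_ofNat_of_zero_le h5
      rw [hc]
      exact PowerSeries.coeff_of_lt_order_toNat n (by exact_mod_cast hm)

theorem order_qlw {w : ℕ} (hw : 0 < w) (hf : QW w f) (hf0 : f ≠ 0) :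
    (qlw w f).order = oQ w f := by
  rw [qlw, order_ofPS (by rwa [ne_eq, hf.qExpansion_eq_zero hw])]
  rfl

theorem qlw_ne {w : ℕ} (hw : 0 < w) (hf : QW w f) (hf0 : f ≠ 0) : qlw w f ≠ 0 := by
  intro h
  rw [qlw, ← map_zero (HahnSeries.ofPowerSeries ℤ ℂ)] at h
  rw [ne_eq, ← hf.qExpansion_eq_zero hw] at hf0
  exact hf0 (ofPS_inj.1 h)

/-! ### the embeddings -/

variable {K : Type*} [Field K] [Algebra ℚ K] (N) [NeZero N] (ι : K →+* ℂ)

/-- the modular function field over `K` -/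
abbrev FK (K : Type*) [Field K] [Algebra ℚ K] (N : ℕ) : IntermediateField K (LaurentSeries K) :=
  laurentBaseChange K (modularFunctionFieldFull N)

variable {N}

/-- `x` is represented by the quotient `f / g`. -/
abbrev RepK (x : FK K N) (k : ℤ) (f g : ℍ → ℂ) : Prop := RepF N (coeffMap ι x.1) k f g

variable {ι}

theorem phi0_rep {x : FK K N} (h : RepK ι x k f g) :
    phi0 N ι x * algebraMap hol MF ⟨g, h.mg.holo⟩ = algebraMap hol MF ⟨f, h.mf.holo⟩ := by
  obtain ⟨z, hz⟩ := inclC.mem_fieldRange.1 (coeffMap_mem_range N ι x.1 x.2)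
  have h1 : phi0 N ι x = evM 1 z := by
    have h1 : (⟨coeffMap ι x.1, coeffMap_mem_range N ι x.1 x.2⟩ : inclC.fieldRange) =
        ⟨inclC z, inclC.mem_fieldRange.2 ⟨_, rfl⟩⟩ := Subtype.ext hz.symm
    change evM 1 (invC ⟨coeffMap ι x.1, coeffMap_mem_range N ι x.1 x.2⟩) = _
    rw [h1, invC_inclC]
  have h2 : z * algebraMap ConvL _ h.mg.qgN.qw.cv = algebraMap ConvL _ h.mf.qgN.qw.cv := by
    apply inclC.injective
    rw [map_mul, inclC_algebraMap, inclC_algebraMap, hz]
    change coeffMap ι x.1 * qlw 1 g = qlw 1 f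
    rw [qlw_one, qlw_one, h.eq]
  have h3 := congrArg (evM 1) h2
  rw [map_mul, evM_algebraMap, evM_algebraMap, QW.evPh_cv, QW.evPh_cv, ← h1] at h3
  exact h3

/-- the automorphy factor as a unit -/
theorem slash_eq_pull (hf : MDiff f) (k : ℤ) (γ : SL(2, ℤ)) (τ : ℍ) :
    (f ∣[k] γ) τ = (pull γ ⟨f, hf⟩ : ℍ → ℂ) τ * denom γ τ ^ (-k) := by
  rw [SL_slash_apply, pull_apply]

theorem pull_rep {x : MF} (hf : MDiff f) (hg : MDiff g) (k : ℤ) (γ : SL(2, ℤ))
    (h : x * algebraMap hol MF (pull γ ⟨g, hg⟩) = algebraMap hol MF (pull γ ⟨f, hf⟩)) :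
    x * algebraMap hol MF ⟨g ∣[k] γ, holo_slash hg k γ⟩ =
      algebraMap hol MF ⟨f ∣[k] γ, holo_slash hf k γ⟩ := by
  have hh : MDiff (fun τ : ℍ => denom γ τ ^ (-k)) := by
    have := holo_slash (f := fun _ : ℍ => (1 : ℂ)) mdifferentiable_const k γ
    convert this using 1
    funext τ
    rw [SL_slash_apply]
    simp
  have h1 : ∀ (a : ℍ → ℂ) (ha : MDiff a), (⟨a ∣[k] γ, holo_slash ha k γ⟩ : hol) =
      pull γ ⟨a, ha⟩ * ⟨_, hh⟩ := by
    intro a ha
    apply Subtype.ext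
    funext τ
    exact slash_eq_pull ha k γ τ
  rw [h1 g hg, h1 f hf, map_mul, map_mul, ← mul_assoc, h]

theorem phiX_rep {x : FK K N} (h : RepK ι x k f g) (γ : SL(2, ℤ)) :
    phiX N ι (QuotientGroup.mk γ⁻¹) x * algebraMap hol MF ⟨g ∣[k] γ, holo_slash h.mg.holo k γ⟩ =
      algebraMap hol MF ⟨f ∣[k] γ, holo_slash h.mf.holo k γ⟩ := by
  apply pull_rep h.mf.holo h.mg.holo
  rw [phiX_mk, phiM, RingHom.comp_apply]
  have h1 := congrArg (act γ⁻¹) (phi0_rep h)
  rw [map_mul, act_algebraMap, act_algebraMap, inv_inv] at h1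
  exact h1

theorem order_div {x a b : LaurentSeries ℂ} (h : x * b = a) (hx : x ≠ 0) (hb : b ≠ 0) :
    x.order = a.order - b.order := by
  rw [← h, HahnSeries.order_mul hx hb]
  ring

theorem thetaM_rep {x : FK K N} (hx : x ≠ 0) (h : RepK ι x k f g) (γ : SL(2, ℤ)) (τ : ℍ) :
    (thetaM τ (phiX N ι (QuotientGroup.mk γ⁻¹) x)).order =
      oAt τ (f ∣[k] γ) - oAt τ (g ∣[k] γ) := by
  have h1 := congrArg (thetaM τ) (phiX_rep h γ)
  rw [map_mul, thetaM_algebraMap, thetaM_algebraMap] at h1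
  have hx' : coeffMap ι x.1 ≠ 0 := by
    rw [ne_eq, map_eq_zero]
    intro h0
    exact hx (Subtype.ext h0)
  have key : ∀ (a : ℍ → ℂ) (ha : MDiff a) (ha0 : a ≠ 0),
      (thetaL τ ⟨a ∣[k] γ, holo_slash ha k γ⟩).order = oAt τ (a ∣[k] γ) := by
    intro a ha ha0
    apply order_thetaL
    rw [ordAt, coe_oAt (holo_slash ha k γ) (by rwa [ne_eq, slash_eq_zero_iff])]
  rw [order_div h1, key f h.mf.holo (h.f_ne hx'), key g h.mg.holo h.g0]
  · rw [map_ne_zero, map_ne_zero]
    exact hx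
  · intro h0
    have h2 : (⟨g ∣[k] γ, holo_slash h.mg.holo k γ⟩ : hol) = 0 := by
      apply thetaL_injective τ
      rw [h0, map_zero]
    have h3 : g ∣[k] γ = 0 := congrArg Subtype.val h2
    rw [slash_eq_zero_iff] at h3
    exact h.g0 h3

theorem T_N_mem (δ : SL(2, ℤ)) : δ * ModularGroup.T ^ N * δ⁻¹ ∈ G0 N := by
  rw [CongruenceSubgroup.Gamma0_mem]
  have h : ((ModularGroup.T ^ N : SL(2, ℤ)) : Matrix (Fin 2) (Fin 2) ℤ) = !![1, (N : ℤ); 0, 1] := by
    rw [← zpow_natCast, ModularGroup.coe_T_zpow]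
  have h2 : (δ * ModularGroup.T ^ N * δ⁻¹ : SL(2, ℤ)) 1 0 = -(N * (δ 1 0) ^ 2) := by
    rw [Matrix.SpecialLinearGroup.coe_mul, Matrix.SpecialLinearGroup.coe_mul, h,
      Matrix.SpecialLinearGroup.coe_inv, Matrix.adjugate_fin_two]
    simp [Matrix.mul_apply, Fin.sum_univ_two]
    ring
  rw [h2]
  push_cast
  simp

theorem phiC_rep {x : FK K N} (hx : x ≠ 0) (h : RepK ι x k f g) (γ : SL(2, ℤ)) :
    (phiC N ι (QuotientGroup.mk γ⁻¹) x).order =
      oQ N (f ∣[k] γ) - oQ N (g ∣[k] γ) := by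
  obtain ⟨z, hz, hz'⟩ := exists_phiX_eq N ι (QuotientGroup.mk γ⁻¹) x
  have hx' : coeffMap ι x.1 ≠ 0 := by
    rw [ne_eq, map_eq_zero]
    intro h0
    exact hx (Subtype.ext h0)
  have qf := qw_slash (T_N_mem γ) h.mf
  have qg := qw_slash (T_N_mem γ) h.mg
  have h1 := phiX_rep h γ
  rw [hz] at h1
  have h2 : z * algebraMap ConvL _ qg.cv = algebraMap ConvL _ qf.cv := by
    apply (evM N).injective
    rw [map_mul, evM_algebraMap, evM_algebraMap, QW.evPh_cv, QW.evPh_cv]
    exact h1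
  have h3 := congrArg inclC h2
  rw [map_mul, inclC_algebraMap, inclC_algebraMap, ← hz'] at h3
  have hf0 : f ∣[k] γ ≠ 0 := by rw [ne_eq, slash_eq_zero_iff]; exact h.f_ne hx'
  have hg0 : g ∣[k] γ ≠ 0 := by rw [ne_eq, slash_eq_zero_iff]; exact h.g0
  rw [order_div h3 (by rw [map_ne_zero]; exact hx) (qlw_ne (NeZero.pos N) qg hg0)]
  change (qlw N _).order - (qlw N _).order = _
  rw [order_qlw (NeZero.pos N) qf hf0, order_qlw (NeZero.pos N) qg hg0]

variable [IsAlgClosed K] [CharZero K]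

/-- Divisibility of all analytic orders implies divisibility at all places, up to `6 N`. -/
theorem dvd_ord_of_rep {x : FK K N} (hx : x ≠ 0) (h : RepK ι x k f g) {m : ℕ}
    (h1 : ∀ (τ : ℍ) (δ : SL(2, ℤ)), (m : ℤ) ∣ oAt τ (f ∣[k] δ) - oAt τ (g ∣[k] δ))
    (h2 : ∀ δ : SL(2, ℤ), (m : ℤ) ∣ oQ N (f ∣[k] δ) - oQ N (g ∣[k] δ))
    (v : Place K (FK K N)) : (m : ℤ) ∣ 6 * N * v.ord x := by
  rcases le_or_gt 0 (v.ord (jj K N)) with hv | hv
  · obtain ⟨y, τ, e, he, he6, hord⟩ := exists_point_of_place N ι v hv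
    induction y using QuotientGroup.induction_on with
    | H γ =>
      have h3 := hord x hx
      have h4 := thetaM_rep hx h γ⁻¹ τ
      rw [inv_inv, h3] at h4
      have h5 := h1 τ γ⁻¹
      rw [← h4] at h5
      obtain ⟨c, hc⟩ := he6
      have : (6 : ℤ) * N * v.ord x = (e * v.ord x) * (c * N) := by
        have hc' : (6 : ℤ) = e * c := by exact_mod_cast hc
        rw [hc']; ring
      rw [this]
      exact Dvd.dvd.mul_right h5 _
  · obtain ⟨y, e, he, heN, hord⟩ := exists_cusp_of_place N ι v hv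
    induction y using QuotientGroup.induction_on with
    | H γ =>
      have h3 := hord x hx
      have h4 := phiC_rep hx h γ⁻¹
      rw [inv_inv, h3] at h4
      have h5 := h2 γ⁻¹
      rw [← h4] at h5
      obtain ⟨c, hc⟩ := heN
      have : (6 : ℤ) * N * v.ord x = (e * v.ord x) * (c * 6) := by
        have hc' : (N : ℤ) = e * c := by exact_mod_cast hc
        rw [hc']; ring
      rw [this]
      exact Dvd.dvd.mul_right h5 _

end

end Fermat.Agent.Kum
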