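import Fermat.Agent.Kum.Rep
import Fermat.Agent.Period.Parab

/-!
# Functions all of whose orders are divisible by `m` are represented by parabolic characters
-/

set_option autoImplicit false
set_option linter.unusedSectionVars false

open UpperHalfPlane ModularForm Complex Filter Topology Matrix.SpecialLinearGroup
open scoped MatrixGroups Manifold

namespace Fermat.Agent.Kum

open Fermat.Agent.MFLib ModularCurve

noncomputable section

local notation "𝕢" => Function.Periodic.qParam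

variable {N m : ℕ} [NeZero m] {k l : ℤ} {f g u v V : ℍ → ℂ}

lemma exists_unit_part {w : ℕ} (hw : 0 < w) (hV : QW w V) (hV0 : V ≠ 0) :
    ∃ G : ℂ → ℂ, ContinuousAt G 0 ∧ G 0 ≠ 0 ∧
      ∀ z : ℍ, V z = 𝕢 (w : ℝ) z ^ (oQ w V) * G (𝕢 (w : ℝ) z) := by
  have hw' : (0 : ℝ) < w := by exact_mod_cast hw
  set p : FormalMultilinearSeries ℂ ℂ ℂ :=
    .ofScalars ℂ fun n ↦ (qExpansion (w : ℝ) V).coeff n with hpdef
  have hp : HasFPowerSeriesAt (cuspFunction w V) p 0 :=
    (hasFPowerSeriesOnBall_cuspFunction hw' (hV.analyticAt hw)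
      (fun τ => hasSum_qExpansion hw' hV.per hV.holo hV.bdd τ)).hasFPowerSeriesAt
  have hq0 : qExpansion (w : ℝ) V ≠ 0 := by
    rw [ne_eq, hV.qExpansion_eq_zero hw]; exact hV0
  have hcoeff : ∀ n, p n = 0 ↔ (qExpansion (w : ℝ) V).coeff n = 0 := by
    intro n
    rw [← norm_eq_zero, hpdef, ← (ContinuousMultilinearMap.piFieldEquiv ℂ (Fin n) ℂ).symm.norm_map]
    simp
  have hne : p (oQ w V) ≠ 0 := by
    rw [ne_eq, hcoeff]
    exact PowerSeries.coeff_order hq0
  have hp0 : p ≠ 0 := by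
    intro h
    exact hne (by rw [h]; rfl)
  have hord : p.order = oQ w V := by
    apply le_antisymm
    · by_contra hlt
      push Not at hlt
      exact hne (FormalMultilinearSeries.apply_eq_zero_of_lt_order hlt)
    · by_contra hlt
      push Not at hlt
      have h1 := FormalMultilinearSeries.apply_order_ne_zero hp0
      rw [ne_eq, hcoeff] at h1
      exact h1 (PowerSeries.coeff_of_lt_order_toNat _ hlt)
  refine ⟨_, (hp.has_fpower_series_iterate_dslope_fslope p.order).continuousAt,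
    hp.iterate_dslope_fslope_ne_zero hp0, fun z => ?_⟩
  have h2 := hp.eq_pow_order_mul_iterate_dslope (𝕢 (w : ℝ) z)
  rw [eq_cuspFunction z hw'.ne' hV.per, sub_zero, smul_eq_mul] at h2
  rw [h2, hord]

lemma tendsto_vadd (w : ℝ) : Tendsto (fun z : ℍ => w +ᵥ z) atImInfty atImInfty := by
  rw [atImInfty, tendsto_comap_iff]
  have : UpperHalfPlane.im ∘ (fun z : ℍ => w +ᵥ z) = UpperHalfPlane.im := by
    funext z
    simp
  rw [this]
  exact tendsto_comap

theorem const_eq_one_of_root {w : ℕ} (hw : 0 < w) (hv : MDiff v) (hV : QW w V) (hV0 : V ≠ 0)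
    (hvV : v ^ m = V) (hdvd : m ∣ oQ w V) {c : ℂ} (hc : c ^ m = 1)
    (hper : ∀ z : ℍ, v ((w : ℝ) +ᵥ z) = c * v z) : c = 1 := by
  obtain ⟨G, hG, hG0, hVG⟩ := exists_unit_part hw hV hV0
  obtain ⟨e, he⟩ := hdvd
  have hw' : (w : ℂ) ≠ 0 := by exact_mod_cast hw.ne'
  have hm : 0 < m := NeZero.pos m
  have hW : 0 < m * w := Nat.mul_pos hm hw
  -- the auxiliary function
  set h : ℍ → ℂ := fun z => v z * (𝕢 (w : ℝ) z)⁻¹ ^ e with hh
  have hpow : ∀ z, h z ^ m = G (𝕢 (w : ℝ) z) := by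
    intro z
    have h1 : V z = v z ^ m := by rw [← hvV]; rfl
    have hq : 𝕢 (w : ℝ) (z : ℂ) ≠ 0 := Function.Periodic.qParam_ne_zero _
    simp only [hh]
    rw [mul_pow, ← h1, hVG z, he, ← pow_mul, inv_pow, mul_comm e m, mul_comm, ← mul_assoc,
      inv_mul_cancel₀ (pow_ne_zero _ hq), one_mul]
  have hqper : ∀ z : ℍ, 𝕢 (w : ℝ) ((((w : ℝ) +ᵥ z : ℍ)) : ℂ) = 𝕢 (w : ℝ) z := by
    intro z
    have hw'' : ((w : ℝ) : ℂ) ≠ 0 := by simpa using hw'
    have h1 : 2 * Real.pi * Complex.I * ((w : ℝ) + (z : ℂ)) / (w : ℝ) =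
        2 * Real.pi * Complex.I * (z : ℂ) / (w : ℝ) + 2 * Real.pi * Complex.I := by
      field_simp
      ring
    rw [coe_vadd, Function.Periodic.qParam, Function.Periodic.qParam, h1,
      Complex.exp_periodic]
  have hstep : ∀ z : ℍ, h ((w : ℝ) +ᵥ z) = c * h z := by
    intro z
    simp only [hh]
    rw [hper, hqper]
    ring
  have hstepn : ∀ (n : ℕ) (z : ℍ), h (((n * w : ℕ) : ℝ) +ᵥ z) = c ^ n * h z := by
    intro n
    induction n with
    | zero => intro z; simp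
    | succ n ih =>
      intro z
      have h1 : (((n + 1) * w : ℕ) : ℝ) +ᵥ z = (w : ℝ) +ᵥ (((n * w : ℕ) : ℝ) +ᵥ z) := by
        rw [← add_vadd]
        congr 1
        push_cast
        ring
      rw [h1, hstep, ih]
      ring
  have hmd : MDiff h := by
    have h1 : MDiff (fun z : ℍ => (𝕢 (w : ℝ) (z : ℂ))⁻¹ ^ e) := by
      rw [UpperHalfPlane.mdifferentiable_iff]
      intro z hz
      have hz' : 0 < z.im := hz
      have h2 : DifferentiableAt ℂ (fun y : ℂ => (𝕢 (w : ℝ) y)⁻¹ ^ e) z := by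
        refine DifferentiableAt.pow ?_ _
        refine DifferentiableAt.inv ?_ (Function.Periodic.qParam_ne_zero _)
        exact (Function.Periodic.differentiable_qParam z)
      refine (h2.congr_of_eventuallyEq ?_).differentiableWithinAt
      filter_upwards [isOpen_upperHalfPlaneSet.mem_nhds hz'] with y hy
      simp only [Function.comp_apply]
      rw [ofComplex_apply_of_im_pos hy]
    exact hv.mul h1
  have htend : Tendsto (fun z => h z ^ m) atImInfty (𝓝 (G 0)) := by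
    have h1 : (fun z => h z ^ m) = fun z : ℍ => G (𝕢 (w : ℝ) z) := funext hpow
    rw [h1]
    exact hG.tendsto.comp (qParam_tendsto_atImInfty (by exact_mod_cast hw))
  have hbd : IsBoundedAtImInfty h := by
    rw [UpperHalfPlane.isBoundedAtImInfty_iff]
    have h1 : IsBoundedAtImInfty (fun z => h z ^ m) := htend.isBigO_one ℝ
    rw [UpperHalfPlane.isBoundedAtImInfty_iff] at h1
    obtain ⟨M, A, h1⟩ := h1
    refine ⟨max M 1, A, fun z hz => ?_⟩
    by_contra hlt
    push Not at hlt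
    have h2 := h1 z hz
    rw [norm_pow] at h2
    have h3 : (1 : ℝ) ≤ ‖h z‖ := (le_max_right _ _).trans hlt.le
    have h4 : ‖h z‖ ≤ ‖h z‖ ^ m := le_self_pow₀ h3 hm.ne'
    have h5 := (le_max_left M 1).trans_lt hlt
    linarith
  have hhper : Function.Periodic (h ∘ ofComplex) ((m * w : ℕ) : ℝ) := by
    intro y
    by_cases hy : 0 < im y
    · have h1 : 0 < im (y + (((m * w : ℕ) : ℝ) : ℂ)) := by simpa using hy
      simp only [Function.comp_apply, ofComplex_apply_of_im_pos h1, ofComplex_apply_of_im_pos hy]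
      have h2 := hstepn m ⟨y, hy⟩
      rw [hc, one_mul] at h2
      rw [← h2]
      congr 1
      ext
      simp [add_comm]
    · push Not at hy
      have h1 : im (y + (((m * w : ℕ) : ℝ) : ℂ)) ≤ 0 := by simpa using hy
      simp only [Function.comp_apply]
      rw [ofComplex_apply_of_im_nonpos h1, ofComplex_apply_of_im_nonpos hy]
  have hQ : QW (m * w) h := ⟨hhper, hmd, hbd⟩
  -- the limit of `h`
  have hlim : Tendsto h atImInfty (𝓝 (cuspFunction ((m * w : ℕ) : ℝ) h 0)) := by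
    have h1 : (cuspFunction ((m * w : ℕ) : ℝ) h ∘ fun τ : ℍ ↦ 𝕢 ((m * w : ℕ) : ℝ) τ) = h := by
      funext τ
      exact eq_cuspFunction τ (by exact_mod_cast hW.ne') hhper
    have h2 : Tendsto (cuspFunction ((m * w : ℕ) : ℝ) h ∘ fun τ : ℍ ↦ 𝕢 ((m * w : ℕ) : ℝ) τ)
        atImInfty (𝓝 (cuspFunction ((m * w : ℕ) : ℝ) h 0)) :=
      (hQ.analyticAt hW).continuousAt.tendsto.comp
      (qParam_tendsto_atImInfty (by exact_mod_cast hW))
    rwa [h1] at h2
  set L := cuspFunction ((m * w : ℕ) : ℝ) h 0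
  have hL0 : L ≠ 0 := by
    intro h0
    have h1 := tendsto_nhds_unique (hlim.pow m) htend
    rw [h0, zero_pow hm.ne'] at h1
    exact hG0 h1.symm
  have h1 : Tendsto (fun z => h ((w : ℝ) +ᵥ z)) atImInfty (𝓝 L) := hlim.comp (tendsto_vadd _)
  have h2 : (fun z => h ((w : ℝ) +ᵥ z)) = fun z => c * h z := funext hstep
  rw [h2] at h1
  have h3 := tendsto_nhds_unique h1 (hlim.const_mul c)
  have h4 : (c - 1) * L = 0 := by
    rw [sub_mul, one_mul, ← h3, sub_self]
  rcases mul_eq_zero.1 h4 with h5 | h5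
  · exact sub_eq_zero.1 h5
  · exact absurd h5 hL0

lemma exists_ech_eq {c : ℂ} (hc : c ^ m = 1) : ∃ a : ZMod m, ech a = c := by
  obtain ⟨i, -, h⟩ := (Complex.isPrimitiveRoot_exp m (NeZero.ne m)).eq_pow_of_pow_eq_one hc
  refine ⟨(i : ZMod m), ?_⟩
  have h1 := ZMod.stdAddChar_coe (N := m) (i : ℤ)
  push_cast at h1
  rw [ech, h1, ← h, ← Complex.exp_nat_mul]
  congr 1
  ring

lemma eq_zero_of_smul_eq {a b : ℂ} {u : ℍ → ℂ} (hu : u ≠ 0) (h : a • u = b • u) : a = b := by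
  have h1 : (a - b) • u = 0 := by rw [sub_smul, h, sub_self]
  rcases smul_eq_zero.1 h1 with h2 | h2
  · exact sub_eq_zero.1 h2
  · exact absurd h2 hu

lemma eq_one_or_neg_of_act (t : SL(2, ℤ)) (h : ∀ z : ℍ, t • z = z) : t = 1 ∨ t = -1 := by
  have key : ∀ z : ℍ, ((t 0 0 : ℂ) * z + t 0 1) = z * ((t 1 0 : ℂ) * z + t 1 1) := by
    intro z
    have h1 := congrArg (fun w : ℍ => (w : ℂ)) (h z)
    simp only [UpperHalfPlane.coe_specialLinearGroup_apply] at h1
    have h2 : ((t 1 0 : ℂ) * z + t 1 1) ≠ 0 := by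
      have := UpperHalfPlane.denom_ne_zero t z
      rwa [ModularGroup.denom_apply] at this
    rw [div_eq_iff] at h1
    · simpa using h1
    · simpa using h2
  have k1 := key UpperHalfPlane.I
  have k2 := key ⟨2 * Complex.I, by simp⟩
  have hI : ((UpperHalfPlane.I : ℍ) : ℂ) = Complex.I := rfl
  rw [hI] at k1
  simp only [Complex.ext_iff] at k1 k2
  simp at k1 k2
  obtain ⟨k1a, k1b⟩ := k1
  obtain ⟨k2a, k2b⟩ := k2
  have e1 : (t 0 1 : ℝ) = -(t 1 0 : ℝ) := by linarith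
  have e2 : (t 0 0 : ℝ) = (t 1 1 : ℝ) := by linarith
  have e3 : (t 0 1 : ℝ) = 0 := by linarith
  have e4 : (t 1 0 : ℝ) = 0 := by linarith
  have f2 : t 0 0 = t 1 1 := by exact_mod_cast e2
  have f3 : t 0 1 = 0 := by exact_mod_cast e3
  have f4 : t 1 0 = 0 := by exact_mod_cast e4
  have hdet := t.det_coe
  rw [Matrix.det_fin_two, f3, f4, f2] at hdet
  have h5 : (t 1 1 - 1) * (t 1 1 + 1) = 0 := by linarith
  rcases mul_eq_zero.1 h5 with h6 | h6
  · left
    have f5 : t 1 1 = 1 := by linarith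
    ext i j
    fin_cases i <;> fin_cases j <;> simp [f2, f3, f4, f5]
  · right
    have f5 : t 1 1 = -1 := by linarith
    ext i j
    fin_cases i <;> fin_cases j <;> simp [f2, f3, f4, f5]

/-- a parabolic element is conjugate to a translation up to sign -/
lemma exists_conj_parab (γ : SL(2, ℤ)) (h : (γ : Matrix (Fin 2) (Fin 2) ℤ).trace ^ 2 = 4) :
    ∃ (δ : SL(2, ℤ)) (n : ℤ), γ = δ * ModularGroup.T ^ n * δ⁻¹ ∨
      γ = -(δ * ModularGroup.T ^ n * δ⁻¹) := by
  obtain ⟨δ, n, hδ⟩ := Period.exists_conj_T_zpow γ h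
  refine ⟨δ, n, ?_⟩
  have h1 := eq_one_or_neg_of_act (δ⁻¹ * γ * δ * (ModularGroup.T ^ n)⁻¹) (by
    intro z
    obtain ⟨z', rfl⟩ : ∃ z', z = ModularGroup.T ^ n • z' :=
      ⟨(ModularGroup.T ^ n)⁻¹ • z, by rw [smul_inv_smul]⟩
    rw [mul_smul, mul_smul, mul_smul, inv_smul_smul, hδ, inv_smul_smul])
  rcases h1 with h1 | h1
  · left
    have h2 : γ = δ * (δ⁻¹ * γ * δ * (ModularGroup.T ^ n)⁻¹) * ModularGroup.T ^ n * δ⁻¹ := by group
    rw [h1, mul_one] at h2
    exact h2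
  · right
    have h2 : γ = δ * (δ⁻¹ * γ * δ * (ModularGroup.T ^ n)⁻¹) * ModularGroup.T ^ n * δ⁻¹ := by group
    rw [h1, mul_neg_one, neg_mul, neg_mul] at h2
    exact h2

lemma slash_neg_one (f : ℍ → ℂ) (k : ℤ) : f ∣[k] (-1 : SL(2, ℤ)) = ((-1 : ℂ) ^ k) • f := by
  funext z
  rw [SL_slash_apply, ModularGroup.denom_apply, ModularGroup.SL_neg_smul, one_smul]
  simp only [Pi.smul_apply, smul_eq_mul]
  have : ((-1 : SL(2, ℤ)) 1 0 : ℂ) * z + ((-1 : SL(2, ℤ)) 1 1 : ℂ) = -1 := by simp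
  rw [this, zpow_neg, ← inv_zpow, inv_neg_one, mul_comm]

lemma neg_one_mem : (-1 : SL(2, ℤ)) ∈ G0 N := by
  rw [CongruenceSubgroup.Gamma0_mem]
  simp

lemma neg_one_pow_weight (hg : IsMF (G0 N) k g) (hg0 : g ≠ 0) : (-1 : ℂ) ^ k = 1 := by
  have h := hg.slash _ neg_one_mem
  rw [slash_neg_one] at h
  exact eq_zero_of_smul_eq hg0 (by rw [h, one_smul])

lemma slash_T_pow (v : ℍ → ℂ) (k : ℤ) (n : ℕ) (z : ℍ) :
    (v ∣[k] (ModularGroup.T ^ n : SL(2, ℤ))) z = v ((n : ℝ) +ᵥ z) := by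
  rw [SL_slash_apply]
  have h5 : ((ModularGroup.T ^ n : SL(2, ℤ)) : Matrix (Fin 2) (Fin 2) ℤ) = !![1, (n : ℤ); 0, 1] := by
    rw [← zpow_natCast, ModularGroup.coe_T_zpow]
  have h3 : denom ((ModularGroup.T ^ n : SL(2, ℤ)) : GL (Fin 2) ℝ) (z : ℂ) = 1 := by
    rw [ModularGroup.denom_apply, h5]
    simp
  have h4 := UpperHalfPlane.modular_T_zpow_smul z n
  rw [zpow_natCast] at h4
  rw [h3, one_zpow, mul_one, h4]
  norm_num

theorem exists_rep_of_dvd {x : LaurentSeries ℂ} (hx : x ∈ MFun N) (hx0 : x ≠ 0)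
    (h1 : ∀ τ : ℍ, (m : ℤ) ∣ (ptVal N τ).val x)
    (h2 : ∀ (w : ℕ) (hw : 0 < w) (δ : SL(2, ℤ)) (hδ : δ * ModularGroup.T ^ w * δ⁻¹ ∈ G0 N),
      (m : ℤ) ∣ (cuspVal hw δ hδ).val x) :
    ∃ φ : Additive (G0 N) →+ ZMod m, Period.IsParabolicHom (G0 N) φ ∧ Rep N x φ := by
  obtain ⟨k, f, g, hfg⟩ := hx
  have hm : 0 < m := NeZero.pos m
  have hf0 := hfg.f_ne hx0
  set U : ℍ → ℂ := f * g ^ (m - 1) with hU
  have hk : k + ((m - 1 : ℕ) : ℤ) * k = m * k := by
    have : (m : ℤ) = ((m - 1 : ℕ) : ℤ) + 1 := by omega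
    rw [this]; ring
  have hUmf : IsMF (G0 N) (m * k) U := (hfg.mf.mul (hfg.mg.pow (m - 1))).congr_weight hk
  have hgm0 : g ^ (m - 1) ≠ 0 := pow_ne_zero'' hfg.mg.holo hfg.g0 _
  have hgm : MDiff (g ^ (m - 1)) := (hfg.mg.pow (m - 1)).holo
  have hU0 : U ≠ 0 := mul_ne_zero' hfg.mf.holo hgm hf0 hgm0
  -- the root
  obtain ⟨u, hu, huU⟩ : ∃ u : ℍ → ℂ, MDiff u ∧ ∀ τ, u τ ^ m = U τ := by
    apply Kum3.exists_root hUmf.holo hU0 hm
    intro τ
    have h3 := h1 τ
    rw [(ptVal N τ).val_eq hx0 hfg] at h3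
    change (m : ℤ) ∣ (oAt τ f : ℤ) - oAt τ g at h3
    obtain ⟨c, hc⟩ := h3
    have h4 : oAt τ U = oAt τ f + (m - 1) * oAt τ g := by
      rw [hU, oAt_mul hfg.mf.holo hgm hf0 hgm0, oAt_pow hfg.mg.holo hfg.g0]
    have h5 : (oAt τ U : ℤ) = m * (c + oAt τ g) := by
      rw [h4]
      push_cast
      rw [Nat.cast_sub hm]
      push_cast
      linear_combination hc
    have h6 : 0 ≤ c + oAt τ g := by
      by_contra hlt
      push Not at hlt
      have : (m : ℤ) * (c + oAt τ g) < 0 := mul_neg_of_pos_of_neg (by exact_mod_cast hm) hlt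
      omega
    obtain ⟨e, he⟩ := Int.eq_ofNat_of_zero_le h6
    refine ⟨e, ?_⟩
    rw [← coe_oAt hUmf.holo hU0]
    rw [he] at h5
    exact_mod_cast h5
  have huU' : u ^ m = U := funext huU
  have hu0 : u ≠ 0 := by
    rintro rfl
    apply hU0
    rw [← huU', zero_pow hm.ne']
  have hslash : ∀ δ : SL(2, ℤ), (u ∣[k] δ) ^ m = U ∣[(m * k : ℤ)] δ := by
    intro δ
    rw [← pow_slash_SL, huU']
  have huHB : HB k u := by
    refine ⟨hu, fun δ => ?_⟩
    have h3 := hUmf.bdd δ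
    rw [← hslash] at h3
    rw [UpperHalfPlane.isBoundedAtImInfty_iff] at h3 ⊢
    obtain ⟨M, A, h3⟩ := h3
    refine ⟨max M 1, A, fun z hz => ?_⟩
    by_contra hlt
    push Not at hlt
    have h4 := h3 z hz
    rw [Pi.pow_apply, norm_pow] at h4
    have h5 : (1 : ℝ) ≤ ‖(u ∣[k] δ) z‖ := (le_max_right _ _).trans hlt.le
    have h6 : ‖(u ∣[k] δ) z‖ ≤ ‖(u ∣[k] δ) z‖ ^ m := le_self_pow₀ h5 hm.ne'
    have h7 := (le_max_left M 1).trans_lt hlt
    linarith
  -- the character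
  have hex : ∀ γ : G0 N, ∃ a : ZMod m, u ∣[k] (γ : SL(2, ℤ)) = ech a • u := by
    intro γ
    obtain ⟨c, hc, h3⟩ := exists_eq_smul_of_pow_eq hm (u := u ∣[k] (γ : SL(2, ℤ))) (v := u)
      (holo_slash hu k γ) hu (by rw [hslash, hUmf.slash _ γ.2, huU'])
    obtain ⟨a, rfl⟩ := exists_ech_eq hc
    exact ⟨a, h3⟩
  choose a ha using hex
  let φ : Additive (G0 N) →+ ZMod m :=
    AddMonoidHom.mk' (fun γ => a (Additive.toMul γ)) (by
      intro γ δ
      apply ech_injective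
      apply eq_zero_of_smul_eq hu0
      rw [← ha, toMul_add, Subgroup.coe_mul, SlashAction.slash_mul, ha, SL_smul_slash, ha, smul_smul,
        ech_add])
  have hφ : ∀ γ : G0 N, φ (Additive.ofMul γ) = a γ := fun γ => rfl
  refine ⟨φ, ?_, k, u, g, huHB, hu0, fun γ => by rw [hφ]; exact ha γ, hfg.mg, hfg.g0, ?_⟩
  · -- parabolic elements
    intro γ hγ
    -- positive translations
    have kpos : ∀ (n : ℕ) (hn : 0 < n) (δ : SL(2, ℤ)) (c : ℂ), c ^ m = 1 →
        δ * ModularGroup.T ^ n * δ⁻¹ ∈ G0 N → u ∣[k] (δ * ModularGroup.T ^ n * δ⁻¹) = c • u →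
        c = 1 := by
      intro n hn δ c hc hmem hsl
      refine const_eq_one_of_root (m := m) hn (v := u ∣[k] δ) (V := U ∣[(m * k : ℤ)] δ)
        (holo_slash hu k δ) (qw_slash hmem hUmf) ?_ (hslash δ) ?_ hc ?_
      · rw [ne_eq, slash_eq_zero_iff]; exact hU0
      · have h3 := h2 n hn δ hmem
        rw [(cuspVal hn δ hmem).val_eq hx0 hfg] at h3
        change (m : ℤ) ∣ (oQ n (f ∣[k] δ) : ℤ) - oQ n (g ∣[k] δ) at h3
        have hfδ : f ∣[k] δ ≠ 0 := by rw [ne_eq, slash_eq_zero_iff]; exact hf0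
        have hgδ : g ∣[k] δ ≠ 0 := by rw [ne_eq, slash_eq_zero_iff]; exact hfg.g0
        have h4 : oQ n (U ∣[(m * k : ℤ)] δ) = oQ n (f ∣[k] δ) + (m - 1) * oQ n (g ∣[k] δ) := by
          rw [← hk, hU, mul_slash_SL2, pow_slash_SL,
            oQ_mul hn (qw_slash hmem hfg.mf) ((qw_slash hmem hfg.mg).pow _) hfδ
              (pow_ne_zero'' (holo_slash hfg.mg.holo k δ) hgδ _),
            oQ_pow hn (qw_slash hmem hfg.mg) hgδ]
        have h5 : (oQ n (U ∣[(m * k : ℤ)] δ) : ℤ) =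
            (oQ n (f ∣[k] δ) - oQ n (g ∣[k] δ)) + m * oQ n (g ∣[k] δ) := by
          rw [h4]
          push_cast
          rw [Nat.cast_sub hm]
          push_cast
          ring
        have h6 : (m : ℤ) ∣ (oQ n (U ∣[(m * k : ℤ)] δ) : ℤ) := by
          rw [h5]; exact dvd_add h3 (dvd_mul_right _ _)
        exact_mod_cast h6
      · intro z
        rw [← slash_T_pow (u ∣[k] δ) k, ← SlashAction.slash_mul]
        have h3 : δ * ModularGroup.T ^ n = (δ * ModularGroup.T ^ n * δ⁻¹) * δ := by group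
        rw [h3, SlashAction.slash_mul, hsl, SL_smul_slash]
        rfl
    have kall : ∀ (n : ℤ) (δ : SL(2, ℤ)) (c : ℂ), c ^ m = 1 →
        δ * ModularGroup.T ^ n * δ⁻¹ ∈ G0 N → u ∣[k] (δ * ModularGroup.T ^ n * δ⁻¹) = c • u →
        c = 1 := by
      intro n δ c hc hmem hsl
      rcases lt_trichotomy n 0 with hn | rfl | hn
      · obtain ⟨p, hp⟩ := Int.eq_ofNat_of_zero_le (neg_nonneg.2 hn.le)
        have hp0 : 0 < p := by omega
        have h3 : (δ * ModularGroup.T ^ n * δ⁻¹)⁻¹ = δ * ModularGroup.T ^ p * δ⁻¹ := by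
          have : n = -(p : ℤ) := by omega
          rw [this]
          group
        have hc0 : c ≠ 0 := by
          rintro rfl
          rw [zero_pow hm.ne'] at hc
          exact zero_ne_one hc
        have h4 := kpos p hp0 δ c⁻¹ (by rw [inv_pow, hc, inv_one]) (by
          rw [← h3]; exact inv_mem hmem) (by
          rw [← h3]
          have h5 : (u ∣[k] (δ * ModularGroup.T ^ n * δ⁻¹)) ∣[k] (δ * ModularGroup.T ^ n * δ⁻¹)⁻¹
              = u := by
            rw [← SlashAction.slash_mul, mul_inv_cancel, SlashAction.slash_one]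
          rw [hsl, SL_smul_slash] at h5
          rw [eq_comm, inv_smul_eq_iff₀ hc0]
          exact h5.symm)
        rwa [inv_eq_one] at h4
      · rw [zpow_zero, mul_one, mul_inv_cancel, SlashAction.slash_one] at hsl
        exact (eq_zero_of_smul_eq hu0 (by rw [one_smul]; exact hsl)).symm
      · obtain ⟨p, rfl⟩ := Int.eq_ofNat_of_zero_le hn.le
        simp only [zpow_natCast] at hmem hsl
        exact kpos p (by omega) δ c hc hmem hsl
    rw [hφ]
    apply ech_injective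
    rw [ech_zero]
    obtain ⟨δ, n, h3⟩ := exists_conj_parab γ hγ
    rcases h3 with h3 | h3
    · refine kall n δ _ (ech_pow _) (by rw [← h3]; exact γ.2) ?_
      rw [← h3]; exact ha γ
    · have h4 : δ * ModularGroup.T ^ n * δ⁻¹ = (-1 : SL(2, ℤ)) * γ := by rw [h3]; simp
      refine kall n δ _ (ech_pow (a γ)) (by rw [h4]; exact mul_mem neg_one_mem γ.2) ?_
      rw [h4, SlashAction.slash_mul, slash_neg_one, neg_one_pow_weight hfg.mg hfg.g0, one_smul]
      exact ha γ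
  · rw [huU', hU, ql_mul hfg.mf.qgN (hfg.mg.pow _).qgN, ql_pow hfg.mg.qgN, ← hfg.eq, mul_assoc,
      ← pow_succ', Nat.sub_add_cancel hm]

end

end Fermat.Agent.Kum
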