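import Fermat.Agent.Kum.MFun
import Fermat.Agent.Curve.Residue

/-!
# Analytic valuations on the field of modular functions
-/

set_option autoImplicit false

open UpperHalfPlane ModularForm Complex Filter Topology Matrix.SpecialLinearGroup
open scoped MatrixGroups Manifold

namespace Fermat.Agent.Kum

open Fermat.Agent.MFLib ModularCurve AlgebraicCurve Fermat.Agent.ModPoly Fermat.Agent.Curve

noncomputable section

local notation "Δ" => ModularForm.discriminant

variable {N : ℕ} {k l : ℤ} {f g : ℍ → ℂ}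

variable (N) in
/-- an additive valuation on modular forms of level `N` -/
structure FVal where
  O : ℤ → (ℍ → ℂ) → ℤ
  mul : ∀ {k l : ℤ} {f g : ℍ → ℂ}, IsMF (G0 N) k f → IsMF (G0 N) l g → f ≠ 0 → g ≠ 0 →
    O (k + l) (f * g) = O k f + O l g
  add : ∀ {k : ℤ} {f g : ℍ → ℂ}, IsMF (G0 N) k f → IsMF (G0 N) k g → f ≠ 0 → g ≠ 0 → f + g ≠ 0 →
    min (O k f) (O k g) ≤ O k (f + g)
  const : ∀ c : ℂ, c ≠ 0 → O 0 (c • 1) = 0

namespace FVal

variable (V : FVal N)

open Classical in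
/-- the valuation on modular functions -/
def val (x : LaurentSeries ℂ) : ℤ :=
  if h : ∃ k f g, RepF N x k f g then
    V.O h.choose h.choose_spec.choose - V.O h.choose h.choose_spec.choose_spec.choose
  else 0

theorem val_eq {x : LaurentSeries ℂ} (hx : x ≠ 0) (h : RepF N x k f g) :
    V.val x = V.O k f - V.O k g := by
  have hex : ∃ k f g, RepF N x k f g := ⟨k, f, g, h⟩
  rw [val, dif_pos hex]
  have key : ∀ k' f' g', RepF N x k' f' g' → V.O k' f' - V.O k' g' = V.O k f - V.O k g := by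
    intro k' f' g' h'
    have h1 := h.cross h'
    have h2 := V.mul h.mf h'.mg (h.f_ne hx) h'.g0
    have h3 := V.mul h'.mf h.mg (h'.f_ne hx) h.g0
    rw [h1, add_comm k k'] at h2
    omega
  exact key _ _ _ hex.choose_spec.choose_spec.choose_spec

theorem val_mul {x y : LaurentSeries ℂ} (hx : x ∈ MFun N) (hy : y ∈ MFun N) (hx0 : x ≠ 0)
    (hy0 : y ≠ 0) : V.val (x * y) = V.val x + V.val y := by
  obtain ⟨k, f, g, h⟩ := hx
  obtain ⟨l, f', g', h'⟩ := hy
  rw [V.val_eq (mul_ne_zero hx0 hy0) (h.mul h'), V.val_eq hx0 h, V.val_eq hy0 h',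
    V.mul h.mf h'.mf (h.f_ne hx0) (h'.f_ne hy0), V.mul h.mg h'.mg h.g0 h'.g0]
  ring

theorem val_add {x y : LaurentSeries ℂ} (hx : x ∈ MFun N) (hy : y ∈ MFun N) (hx0 : x ≠ 0)
    (hy0 : y ≠ 0) (hxy : x + y ≠ 0) : min (V.val x) (V.val y) ≤ V.val (x + y) := by
  obtain ⟨k, f, g, h⟩ := hx
  obtain ⟨l, f', g', h'⟩ := hy
  rw [V.val_eq hxy (h.add h'), V.val_eq hx0 h, V.val_eq hy0 h',
    V.mul h.mg h'.mg h.g0 h'.g0]
  have h1 := V.mul h.mf h'.mg (h.f_ne hx0) h'.g0
  have h2 := V.mul h.mg h'.mf h.g0 (h'.f_ne hy0)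
  have h3 := V.add (h.mf.mul h'.mg) (h.mg.mul h'.mf)
    (mul_ne_zero' h.mf.holo h'.mg.holo (h.f_ne hx0) h'.g0)
    (mul_ne_zero' h.mg.holo h'.mf.holo h.g0 (h'.f_ne hy0)) ((h.add h').f_ne hxy)
  rw [h1, h2] at h3
  rcases le_total (V.O k f - V.O k g) (V.O l f' - V.O l g') with h4 | h4
  · rw [min_eq_left h4]
    rw [min_eq_left (by omega)] at h3
    omega
  · rw [min_eq_right h4]
    rw [min_eq_right (by omega)] at h3
    omega

theorem val_const (c : ℂ) (hc : c ≠ 0) : V.val (HahnSeries.C c) = 0 := by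
  have h0 : (HahnSeries.C c : LaurentSeries ℂ) ≠ 0 := by
    rw [ne_eq, map_eq_zero]
    exact hc
  have h1 : (1 : ℍ → ℂ) = (1 : ℂ) • 1 := by simp
  rw [V.val_eq h0 (RepF.const (N := N) c), V.const c hc]
  conv_lhs => rw [h1, V.const 1 one_ne_zero]
  rfl

end FVal

/-! ### orders at points of the upper half plane -/

theorem order_ne_top' (hf : MDiff f) (hf0 : f ≠ 0) (τ : ℍ) :
    analyticOrderAt (f ∘ ofComplex) τ ≠ ⊤ := order_ne_top hf hf0 τ

/-- order of vanishing at `τ` -/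
def oAt (τ : ℍ) (f : ℍ → ℂ) : ℕ := (analyticOrderAt (f ∘ ofComplex) τ).toNat

theorem coe_oAt (hf : MDiff f) (hf0 : f ≠ 0) (τ : ℍ) :
    (oAt τ f : ℕ∞) = analyticOrderAt (f ∘ ofComplex) τ :=
  ENat.natCast_toNat (order_ne_top' hf hf0 τ)

theorem oAt_mul (hf : MDiff f) (hg : MDiff g) (hf0 : f ≠ 0) (hg0 : g ≠ 0) (τ : ℍ) :
    oAt τ (f * g) = oAt τ f + oAt τ g := by
  have h1 : (f * g) ∘ ofComplex = (f ∘ ofComplex) * (g ∘ ofComplex) := rfl
  rw [oAt, h1, analyticOrderAt_mul (analyticAt_ofComplex hf τ) (analyticAt_ofComplex hg τ),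
    ← coe_oAt hf hf0, ← coe_oAt hg hg0, ← Nat.cast_add, ENat.toNat_natCast]

theorem oAt_pow (hf : MDiff f) (hf0 : f ≠ 0) (τ : ℍ) (n : ℕ) :
    oAt τ (f ^ n) = n * oAt τ f := by
  have h1 : (f ^ n) ∘ ofComplex = (f ∘ ofComplex) ^ n := rfl
  rw [oAt, h1, analyticOrderAt_pow (analyticAt_ofComplex hf τ), ← coe_oAt hf hf0]
  rw [nsmul_eq_mul, ← Nat.cast_mul, ENat.toNat_natCast]

theorem oAt_add (hf : MDiff f) (hg : MDiff g) (hf0 : f ≠ 0) (hg0 : g ≠ 0) (hfg : f + g ≠ 0)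
    (τ : ℍ) : min (oAt τ f) (oAt τ g) ≤ oAt τ (f + g) := by
  have h1 : (f + g) ∘ ofComplex = (f ∘ ofComplex) + (g ∘ ofComplex) := rfl
  have h2 := le_analyticOrderAt_add (f := f ∘ ofComplex) (g := g ∘ ofComplex) (z₀ := (τ : ℂ))
  rw [← h1, ← coe_oAt hf hf0, ← coe_oAt hg hg0, ← coe_oAt (hf.add hg) hfg] at h2
  rw [min_le_iff] at h2 ⊢
  exact_mod_cast h2

theorem oAt_smul_one {c : ℂ} (hc : c ≠ 0) (τ : ℍ) : oAt τ (c • 1) = 0 := by
  have h1 : (c • (1 : ℍ → ℂ)) ∘ ofComplex = fun _ => c := by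
    ext z; simp
  rw [oAt, h1, (analyticAt_const).analyticOrderAt_eq_zero.mpr hc]
  rfl

variable (N) in
/-- the valuation at a point of the upper half plane -/
def ptVal (τ : ℍ) : FVal N where
  O _ f := oAt τ f
  mul hf hg hf0 hg0 := by
    rw [oAt_mul hf.holo hg.holo hf0 hg0]
    push_cast
    rfl
  add hf hg hf0 hg0 hfg := by
    have := oAt_add hf.holo hg.holo hf0 hg0 hfg τ
    exact_mod_cast this
  const c hc := by rw [oAt_smul_one hc]; rfl

/-! ### orders at the cusps -/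

/-- functions with a `q_w`-expansion -/
structure QW (w : ℕ) (f : ℍ → ℂ) : Prop where
  per : Function.Periodic (f ∘ ofComplex) (w : ℝ)
  holo : MDiff f
  bdd : IsBoundedAtImInfty f

namespace QW

variable {w : ℕ}

lemma analyticAt (hw : 0 < w) (hf : QW w f) : AnalyticAt ℂ (cuspFunction w f) 0 :=
  UpperHalfPlane.analyticAt_cuspFunction_zero (by exact_mod_cast hw) hf.per hf.holo hf.bdd

lemma mul (hf : QW w f) (hg : QW w g) : QW w (f * g) where
  per z := by
    have h1 := hf.per z; have h2 := hg.per z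
    simp only [Function.comp_apply, Pi.mul_apply] at h1 h2 ⊢
    rw [h1, h2]
  holo := hf.holo.mul hg.holo
  bdd := hf.bdd.mul hg.bdd

lemma add (hf : QW w f) (hg : QW w g) : QW w (f + g) where
  per z := by
    have h1 := hf.per z; have h2 := hg.per z
    simp only [Function.comp_apply, Pi.add_apply] at h1 h2 ⊢
    rw [h1, h2]
  holo := hf.holo.add hg.holo
  bdd := hf.bdd.add hg.bdd

lemma const (c : ℂ) : QW w (c • (1 : ℍ → ℂ)) where
  per z := by simp
  holo := ((IsMF.one (Γ := ⊤)).smul c).holo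
  bdd := ((IsMF.one (Γ := ⊤)).smul c).toHB.bdd_self

lemma pow (hf : QW w f) (n : ℕ) : QW w (f ^ n) := by
  induction n with
  | zero => simpa using const (w := w) 1
  | succ n ih => rw [pow_succ]; exact ih.mul hf

lemma qExpansion_eq_zero (hw : 0 < w) (hf : QW w f) : qExpansion w f = 0 ↔ f = 0 :=
  qExpansion_eq_zero_iff (by exact_mod_cast hw) hf.per hf.holo hf.bdd

end QW

/-- order of the `q_w`-expansion -/
def oQ (w : ℕ) (f : ℍ → ℂ) : ℕ := (qExpansion w f).order.toNat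

theorem coe_oQ {w : ℕ} (hw : 0 < w) (hf : QW w f) (hf0 : f ≠ 0) :
    (oQ w f : ℕ∞) = (qExpansion w f).order := by
  apply ENat.natCast_toNat
  rw [ne_eq, PowerSeries.order_eq_top, hf.qExpansion_eq_zero hw]
  exact hf0

theorem oQ_mul {w : ℕ} (hw : 0 < w) (hf : QW w f) (hg : QW w g) (hf0 : f ≠ 0) (hg0 : g ≠ 0) :
    oQ w (f * g) = oQ w f + oQ w g := by
  rw [oQ, qExpansion_mul (hf.analyticAt hw) (hg.analyticAt hw), PowerSeries.order_mul,
    ← coe_oQ hw hf hf0, ← coe_oQ hw hg hg0, ← Nat.cast_add, ENat.toNat_natCast]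

theorem oQ_pow {w : ℕ} (hw : 0 < w) (hf : QW w f) (hf0 : f ≠ 0) (n : ℕ) :
    oQ w (f ^ n) = n * oQ w f := by
  induction n with
  | zero =>
    have : qExpansion w (1 : ℍ → ℂ) = 1 := qExpansion_one _
    simp [oQ, this]
  | succ n ih =>
    rcases Nat.eq_zero_or_pos n with rfl | hn
    · simp
    · rw [pow_succ, oQ_mul hw (hf.pow n) hf _ hf0, ih]
      · ring
      · intro h
        rw [ne_eq, ← hf.qExpansion_eq_zero hw] at hf0
        apply hf0
        have h2 : ∀ n : ℕ, qExpansion w (f ^ n) = qExpansion w f ^ n := by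
          intro n
          induction n with
          | zero => simpa using qExpansion_one (w : ℝ)
          | succ n ih =>
            rw [pow_succ, pow_succ, qExpansion_mul ((hf.pow n).analyticAt hw) (hf.analyticAt hw), ih]
        have h3 := h2 n
        rw [h, qExpansion_zero] at h3
        exact pow_eq_zero_iff (hn.ne') |>.1 h3.symm

theorem oQ_add {w : ℕ} (hw : 0 < w) (hf : QW w f) (hg : QW w g) (hf0 : f ≠ 0) (hg0 : g ≠ 0)
    (hfg : f + g ≠ 0) : min (oQ w f) (oQ w g) ≤ oQ w (f + g) := by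
  have h2 := PowerSeries.min_order_le_order_add (qExpansion w f) (qExpansion w g)
  rw [← qExpansion_add (hf.analyticAt hw) (hg.analyticAt hw), ← coe_oQ hw hf hf0,
    ← coe_oQ hw hg hg0, ← coe_oQ hw (hf.add hg) hfg] at h2
  rw [min_le_iff] at h2 ⊢
  exact_mod_cast h2

theorem qExpansion_const' {w : ℕ} (hw : 0 < w) (c : ℂ) :
    qExpansion w (c • (1 : ℍ → ℂ)) = PowerSeries.C c := by
  have h1 : QW w ((1 : ℂ) • (1 : ℍ → ℂ)) := QW.const 1
  have h2 : qExpansion w (1 : ℍ → ℂ) = 1 := qExpansion_one _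
  rw [one_smul] at h1
  rw [qExpansion_smul (h1.analyticAt hw), h2, PowerSeries.smul_eq_C_mul, mul_one]

theorem oQ_const {w : ℕ} (hw : 0 < w) {c : ℂ} (hc : c ≠ 0) : oQ w (c • 1) = 0 := by
  rw [oQ, qExpansion_const' hw]
  have : (PowerSeries.C c : PowerSeries ℂ).order = 0 := by
    rw [PowerSeries.order_eq_nat (n := 0) |>.2]
    · rfl
    · refine ⟨by simpa using hc, fun i hi => absurd hi (Nat.not_lt_zero i)⟩
  rw [this]
  rfl

/-- `q_w`-expansions of translates of forms -/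
theorem qw_slash {w : ℕ} {δ : SL(2, ℤ)} (hδ : δ * ModularGroup.T ^ w * δ⁻¹ ∈ G0 N)
    (hf : IsMF (G0 N) k f) : QW w (f ∣[k] δ) where
  per := by
    apply periodic_of_slash_T_pow (k := k)
    have h1 : δ * ModularGroup.T ^ w = (δ * ModularGroup.T ^ w * δ⁻¹) * δ := by group
    rw [← SlashAction.slash_mul, h1, SlashAction.slash_mul, hf.slash _ hδ]
  holo := holo_slash hf.holo k δ
  bdd := hf.bdd δ

/-- the valuation at a cusp `δ ∞`, in terms of `q_w` -/
def cuspVal {w : ℕ} (hw : 0 < w) (δ : SL(2, ℤ)) (hδ : δ * ModularGroup.T ^ w * δ⁻¹ ∈ G0 N) :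
    FVal N where
  O k f := oQ w (f ∣[k] δ)
  mul hf hg hf0 hg0 := by
    rw [mul_slash_SL2, oQ_mul hw (qw_slash hδ hf) (qw_slash hδ hg)]
    · push_cast; rfl
    · rwa [ne_eq, slash_eq_zero_iff]
    · rwa [ne_eq, slash_eq_zero_iff]
  add {k f g} hf hg hf0 hg0 hfg := by
    have h1 : (f ∣[k] δ) + (g ∣[k] δ) = (f + g) ∣[k] δ := (SlashAction.add_slash _ _ _ _).symm
    have h2 := oQ_add hw (qw_slash hδ hf) (qw_slash hδ hg) (by rwa [ne_eq, slash_eq_zero_iff])
      (by rwa [ne_eq, slash_eq_zero_iff]) (by rwa [h1, ne_eq, slash_eq_zero_iff])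
    rw [h1] at h2
    exact_mod_cast h2
  const c hc := by
    have h1 : (c • (1 : ℍ → ℂ)) ∣[(0 : ℤ)] δ = c • 1 := by
      have := is_invariant_const δ c
      have h2 : (c • (1 : ℍ → ℂ)) = Function.const ℍ c := by ext; simp
      rw [h2]; exact this
    rw [h1, oQ_const hw hc]; rfl

end

end Fermat.Agent.Kum
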